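import Mathlib

set_option autoImplicit false

namespace Fermat.Agent.S51

/-- `5` is not a rational square. -/
theorem not_sq_five (x : ℚ) : x ^ 2 ≠ 5 := by
  intro h
  have h1 : IsSquare ((5 : ℕ) : ℚ) := ⟨x, by push_cast; rw [← h]; ring⟩
  rw [Rat.isSquare_natCast_iff] at h1
  obtain ⟨k, hk⟩ := h1
  have hk3 : k < 3 := by nlinarith
  interval_cases k <;> omega

/-- divisibility endgame: `5 A D = B c₄³`, `5 ∤ A`, `5 ∤ B` forces `5 ∣ c₄` and `5 ∣ D`. -/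
theorem five_dvd_of_rel (c4 D A B : ℤ) (hA : ¬ (5 : ℤ) ∣ A) (hB : ¬ (5 : ℤ) ∣ B)
    (h : 5 * A * D = B * c4 ^ 3) : (5 : ℤ) ∣ D ∧ (5 : ℤ) ∣ c4 := by
  have hp : Prime (5 : ℤ) := by norm_num
  have h1 : (5 : ℤ) ∣ B * c4 ^ 3 := ⟨A * D, by rw [← h]; ring⟩
  have h2 : (5 : ℤ) ∣ c4 := by
    rcases hp.dvd_or_dvd h1 with h' | h'
    · exact absurd h' hB
    · exact hp.dvd_of_dvd_pow h'
  refine ⟨?_, h2⟩
  obtain ⟨k, rfl⟩ := h2
  have h3 : A * D = 5 * (5 * B * k ^ 3) := by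
    have : (5 : ℤ) * (A * D) = 5 * (5 * (5 * B * k ^ 3)) := by linear_combination h
    exact mul_left_cancel₀ (by norm_num) this
  have h4 : (5 : ℤ) ∣ A * D := ⟨_, h3⟩
  rcases hp.dvd_or_dvd h4 with h' | h'
  · exact absurd h' hA
  · exact h'

/-- same with `25 D = B c₄³`. -/
theorem five_dvd_of_rel' (c4 D B : ℤ) (hB : ¬ (5 : ℤ) ∣ B)
    (h : 25 * D = B * c4 ^ 3) : (5 : ℤ) ∣ D ∧ (5 : ℤ) ∣ c4 := by
  have hp : Prime (5 : ℤ) := by norm_num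
  have h1 : (5 : ℤ) ∣ B * c4 ^ 3 := ⟨5 * D, by rw [← h]; ring⟩
  have h2 : (5 : ℤ) ∣ c4 := by
    rcases hp.dvd_or_dvd h1 with h' | h'
    · exact absurd h' hB
    · exact hp.dvd_of_dvd_pow h'
  refine ⟨?_, h2⟩
  obtain ⟨k, rfl⟩ := h2
  have h3 : D = 5 * (B * k ^ 3) := by
    have : (25 : ℤ) * D = 25 * (5 * (B * k ^ 3)) := by linear_combination h
    exact mul_left_cancel₀ (by norm_num) this
  exact ⟨_, h3⟩

/-- The algebraic heart: from the `X₀(3)` and `X₀(5)` relations to the possible values of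
`t = Δ / d³`. -/
theorem t_values
    (HA : ∀ w y : ℚ, y ^ 2 = w * (w - 36) * (w - 100) →
      w = 0 ∨ w = 36 ∨ w = 100 ∨ w = 20 ∨ w = 180)
    (c6 t ξ d : ℚ) (hd : d ≠ 0) (ht : t ≠ 0)
    (hc6 : c6 ^ 2 = d ^ 3 * (t ^ 2 + 22 * t + 125) * (t ^ 2 + 4 * t - 1) ^ 2)
    (h3 : ξ ^ 4 - 6 * (d * (t ^ 2 + 10 * t + 5)) * ξ ^ 2 - 8 * c6 * ξ
      - 3 * (d * (t ^ 2 + 10 * t + 5)) ^ 2 = 0) :
    t = -25 / 2 ∨ t = -25 / 8 ∨ t = -40 ∨ t = -10 := by
  have hr : t ^ 2 + 4 * t - 1 ≠ 0 := by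
    intro h
    exact not_sq_five (t + 2) (by linear_combination h)
  have hT : 0 < t ^ 2 + 22 * t + 125 := by nlinarith [sq_nonneg (t + 11)]
  obtain ⟨η, hη⟩ : ∃ η : ℚ, η = -c6 / (d * (t ^ 2 + 4 * t - 1)) := ⟨_, rfl⟩
  have hc6' : c6 = -η * d * (t ^ 2 + 4 * t - 1) := by
    rw [eq_div_iff (mul_ne_zero hd hr)] at hη
    linarith
  have hη2 : η ^ 2 = d * (t ^ 2 + 22 * t + 125) := by
    have h1 : (d * (t ^ 2 + 4 * t - 1)) ^ 2 * η ^ 2
        = (d * (t ^ 2 + 4 * t - 1)) ^ 2 * (d * (t ^ 2 + 22 * t + 125)) := by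
      rw [hc6'] at hc6
      linear_combination hc6
    exact mul_left_cancel₀ (pow_ne_zero 2 (mul_ne_zero hd hr)) h1
  have hdpos : 0 < d := by
    have h1 : 0 ≤ d * (t ^ 2 + 22 * t + 125) := by rw [← hη2]; positivity
    have h2 : 0 ≤ d := nonneg_of_mul_nonneg_left h1 hT
    exact lt_of_le_of_ne h2 (Ne.symm hd)
  obtain ⟨u, hu⟩ : ∃ u : ℚ, u = ξ - η := ⟨_, rfl⟩
  have hξ : ξ = η + u := by rw [hu]; ring
  obtain ⟨ω, hω⟩ : ∃ ω : ℚ, ω = u ^ 2 / d := ⟨_, rfl⟩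
  have hu2 : u ^ 2 = ω * d := by rw [hω]; field_simp
  have hω0 : 0 ≤ ω := by rw [hω]; positivity
  have key : d * ((ω ^ 2 + 720 * ω + 10800) + t * (72 * (ω + 12)))
      + 4 * η * u * (ω + 108) = 0 := by
    have h1 : d * (d * ((ω ^ 2 + 720 * ω + 10800) + t * (72 * (ω + 12)))
      + 4 * η * u * (ω + 108)) = d * 0 := by
      rw [hξ, hc6'] at h3
      linear_combination h3
        - (3 * d * t ^ 2 - 6 * d * t + 4 * u * η + 6 * u ^ 2 + η ^ 2 + 87 * d) * hη2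
        - (72 * d * t + d * ω + 4 * u * η + u ^ 2 + 720 * d) * hu2
    exact mul_left_cancel₀ hd h1
  have hsq : ((ω ^ 2 + 720 * ω + 10800) + t * (72 * (ω + 12))) ^ 2
      = (t ^ 2 + 22 * t + 125) * (16 * ω * (ω + 108) ^ 2) := by
    have h1 : d ^ 2 * ((ω ^ 2 + 720 * ω + 10800) + t * (72 * (ω + 12))) ^ 2
      = d ^ 2 * ((t ^ 2 + 22 * t + 125) * (16 * ω * (ω + 108) ^ 2)) := by
      have h2 : d * ((ω ^ 2 + 720 * ω + 10800) + t * (72 * (ω + 12)))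
        = - (4 * η * u * (ω + 108)) := by linear_combination key
      calc d ^ 2 * ((ω ^ 2 + 720 * ω + 10800) + t * (72 * (ω + 12))) ^ 2
          = (d * ((ω ^ 2 + 720 * ω + 10800) + t * (72 * (ω + 12)))) ^ 2 := by ring
        _ = (- (4 * η * u * (ω + 108))) ^ 2 := by rw [h2]
        _ = 16 * η ^ 2 * u ^ 2 * (ω + 108) ^ 2 := by ring
        _ = d ^ 2 * ((t ^ 2 + 22 * t + 125) * (16 * ω * (ω + 108) ^ 2)) := by
            rw [hη2, hu2]; ring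
    exact mul_left_cancel₀ (pow_ne_zero 2 hd) h1
  have hω108 : ω + 108 ≠ 0 := by positivity
  have hcases : ω = 0 ∨ ω = 36 ∨ ω = 100 ∨ ω = 20 ∨ ω = 180 := by
    by_cases h36 : ω = 36
    · right; left; exact h36
    have h36' : ω - 36 ≠ 0 := sub_ne_zero.mpr h36
    apply HA ω
      ((((72 * (ω + 12)) ^ 2 - 16 * ω * (ω + 108) ^ 2) * t
        + ((ω ^ 2 + 720 * ω + 10800) * (72 * (ω + 12)) - 11 * (16 * ω * (ω + 108) ^ 2)))
        / (4 * (ω + 108) * (ω - 36)))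
    rw [div_pow, div_eq_iff (pow_ne_zero 2 (mul_ne_zero (mul_ne_zero (by norm_num) hω108) h36'))]
    linear_combination ((72 * (ω + 12)) ^ 2 - 16 * ω * (ω + 108) ^ 2) * hsq
  rcases hcases with h | h | h | h | h
  · left
    rw [h] at hsq
    have h1 : (2 * t + 25) ^ 2 = 0 := by linear_combination hsq / 186624
    have h2 : 2 * t + 25 = 0 := by simpa using h1
    linarith
  · exfalso
    rw [h] at hsq
    have h1 : (47775744 : ℚ) = 0 := by linear_combination - hsq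
    norm_num at h1
  · right; left
    rw [h] at hsq
    have h1 : (8 * t + 25) ^ 2 = 0 := by linear_combination - hsq / 65536
    have h2 : 8 * t + 25 = 0 := by simpa using h1
    linarith
  · right; right; left
    rw [h] at hsq
    have h1 : t * (t + 40) = 0 := by linear_combination hsq / 65536
    rcases mul_eq_zero.mp h1 with h2 | h2
    · exact absurd h2 ht
    · linarith
  · right; right; right
    rw [h] at hsq
    have h1 : t * (t + 10) = 0 := by linear_combination - hsq / 47775744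
    rcases mul_eq_zero.mp h1 with h2 | h2
    · exact absurd h2 ht
    · linarith

theorem arith_core
    (HA : ∀ w y : ℚ, y ^ 2 = w * (w - 36) * (w - 100) →
      w = 0 ∨ w = 36 ∨ w = 100 ∨ w = 20 ∨ w = 180)
    (c4 c6 D : ℤ) (hD : D ≠ 0) (h1728 : 1728 * D = c4 ^ 3 - c6 ^ 2)
    (hss : ∀ p : ℕ, p.Prime → (p : ℤ) ∣ D → ¬ (p : ℤ) ∣ c4) (ξ d : ℚ) (hd : d ≠ 0)
    (h3 : ξ ^ 4 - 6 * (c4 : ℚ) * ξ ^ 2 - 8 * (c6 : ℚ) * ξ - 3 * (c4 : ℚ) ^ 2 = 0)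
    (h5 : 5 * d ^ 6 - (c4 : ℚ) * d ^ 5 + 10 * (D : ℚ) * d ^ 3 + (D : ℚ) ^ 2 = 0) : False := by
  have hDq : (D : ℚ) ≠ 0 := by exact_mod_cast hD
  obtain ⟨t, ht⟩ : ∃ t : ℚ, t = (D : ℚ) / d ^ 3 := ⟨_, rfl⟩
  have hDt : (D : ℚ) = t * d ^ 3 := by rw [ht]; field_simp
  have ht0 : t ≠ 0 := by
    rw [ht]; exact div_ne_zero hDq (pow_ne_zero 3 hd)
  have hc4 : (c4 : ℚ) = d * (t ^ 2 + 10 * t + 5) := by
    have h1 : d ^ 5 * (c4 : ℚ) = d ^ 5 * (d * (t ^ 2 + 10 * t + 5)) := by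
      rw [hDt] at h5
      linear_combination - h5
    exact mul_left_cancel₀ (pow_ne_zero 5 hd) h1
  have h1728q : 1728 * (D : ℚ) = (c4 : ℚ) ^ 3 - (c6 : ℚ) ^ 2 := by exact_mod_cast h1728
  have hc6 : (c6 : ℚ) ^ 2
      = d ^ 3 * (t ^ 2 + 22 * t + 125) * (t ^ 2 + 4 * t - 1) ^ 2 := by
    rw [hDt, hc4] at h1728q
    linear_combination h1728q
  rw [hc4] at h3
  have hfin : ∀ (h : (5 : ℤ) ∣ D ∧ (5 : ℤ) ∣ c4), False := fun h =>
    hss 5 (by norm_num) (by exact_mod_cast h.1) (by exact_mod_cast h.2)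
  rcases t_values HA c6 t ξ d hd ht0 hc6 h3 with h | h | h | h
  · -- t = -25/2 : 5 * 29^3 * D = -32 c4^3
    apply hfin
    apply five_dvd_of_rel c4 D (29 ^ 3) (-32) (by norm_num) (by norm_num)
    have : (5 * 29 ^ 3 * (D : ℚ)) = (-32) * (c4 : ℚ) ^ 3 := by
      rw [hDt, hc4, h]; ring
    exact_mod_cast this
  · -- t = -25/8 : 5 * 211^3 * D = 32768 c4^3
    apply hfin
    apply five_dvd_of_rel c4 D (211 ^ 3) 32768 (by norm_num) (by norm_num)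
    have : (5 * 211 ^ 3 * (D : ℚ)) = 32768 * (c4 : ℚ) ^ 3 := by
      rw [hDt, hc4, h]; ring
    exact_mod_cast this
  · -- t = -40 : 25 * 241^3 * D = -8 c4^3
    apply hfin
    have h2 : (25 * (241 ^ 3 * (D : ℚ))) = (-8) * (c4 : ℚ) ^ 3 := by
      rw [hDt, hc4, h]; ring
    have h3' : 25 * (241 ^ 3 * D) = (-8) * c4 ^ 3 := by exact_mod_cast h2
    obtain ⟨h4, h5'⟩ := five_dvd_of_rel' c4 (241 ^ 3 * D) (-8) (by norm_num) h3'
    refine ⟨?_, h5'⟩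
    have hp : Prime (5 : ℤ) := by norm_num
    rcases hp.dvd_or_dvd h4 with h' | h'
    · norm_num at h'
    · exact h'
  · -- t = -10 : 25 D = -2 c4^3
    apply hfin
    apply five_dvd_of_rel' c4 D (-2) (by norm_num)
    have : (25 * (D : ℚ)) = (-2) * (c4 : ℚ) ^ 3 := by
      rw [hDt, hc4, h]; ring
    exact_mod_cast this

end Fermat.Agent.S51
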