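import Fermat.Agent.S51.Shift

set_option autoImplicit false

namespace Fermat.Agent.S51

open WeierstrassCurve WeierstrassCurve.Affine Polynomial

variable {K : Type*} [Field K] [DecidableEq K]

/-- coordinates of a point. -/
def coords {W : Affine K} : W.Point → Option (K × K)
  | .zero => none
  | .some x y _ => some (x, y)

theorem coords_injective {W : Affine K} : Function.Injective (coords (W := W)) := by
  rintro (_ | ⟨x₁, y₁, h₁⟩) (_ | ⟨x₂, y₂, h₂⟩) h <;>
    simp only [coords, Option.some.injEq, Prod.mk.injEq, reduceCtorEq] at h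
  · rfl
  · obtain ⟨rfl, rfl⟩ := h; rfl

/-- the quadratic in `y` cut out by the Weierstrass equation at a fixed `x`. -/
noncomputable def yPoly (W : Affine K) (x : K) : Polynomial K :=
  X ^ 2 + C (W.a₁ * x + W.a₃) * X - C (x ^ 3 + W.a₂ * x ^ 2 + W.a₄ * x + W.a₆)

theorem yPoly_natDegree (W : Affine K) (x : K) : (yPoly W x).natDegree = 2 := by
  unfold yPoly; compute_degree!

theorem yPoly_ne_zero (W : Affine K) (x : K) : yPoly W x ≠ 0 := by
  intro h
  have := yPoly_natDegree W x
  rw [h] at this
  simp at this

theorem mem_roots_yPoly {W : Affine K} {x y : K} (h : W.Equation x y) :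
    y ∈ (yPoly W x).roots := by
  rw [mem_roots (yPoly_ne_zero W x), IsRoot.def]
  rw [W.equation_iff] at h
  simp only [yPoly, eval_sub, eval_add, eval_pow, eval_X, eval_mul, eval_C]
  linear_combination h

theorem card_torsion_le (W : Affine K) (n : ℕ) (f : Polynomial K) (hf : f ≠ 0) (m : ℕ)
    (hdeg : f.natDegree ≤ m)
    (H : ∀ (x y : K) (h : W.Nonsingular x y), (n : ℤ) • Point.some x y h = 0 → f.eval x = 0) :
    Finite (Submodule.torsionBy ℤ W.Point n) ∧
      Nat.card (Submodule.torsionBy ℤ W.Point n) ≤ 2 * m + 1 := by
  classical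
  set B : Finset (K × K) :=
    f.roots.toFinset.biUnion fun x => (yPoly W x).roots.toFinset.image fun y => (x, y) with hB
  set Cc : Finset (Option (K × K)) := insert none (B.image some) with hC
  have hBcard : B.card ≤ m * 2 := by
    calc B.card ≤ f.roots.toFinset.card * 2 := by
          refine Finset.card_biUnion_le_card_mul _ _ _ fun x _ => ?_
          refine Finset.card_image_le.trans ?_
          refine (Multiset.toFinset_card_le _).trans ?_
          exact (card_roots' _).trans (yPoly_natDegree W x).le
      _ ≤ m * 2 := by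
          refine Nat.mul_le_mul_right _ ?_
          exact (Multiset.toFinset_card_le _).trans ((card_roots' _).trans hdeg)
  have hCcard : Cc.card ≤ 2 * m + 1 := by
    calc Cc.card ≤ (B.image some).card + 1 := Finset.card_insert_le _ _
      _ ≤ B.card + 1 := Nat.add_le_add_right Finset.card_image_le _
      _ ≤ 2 * m + 1 := by omega
  have hmem : ∀ P : Submodule.torsionBy ℤ W.Point n, coords (P : W.Point) ∈ Cc := by
    rintro ⟨P, hP⟩
    rw [Submodule.mem_torsionBy_iff] at hP
    rcases P with _ | ⟨x, y, h⟩
    · exact Finset.mem_insert_self _ _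
    · refine Finset.mem_insert_of_mem (Finset.mem_image_of_mem _ ?_)
      rw [hB, Finset.mem_biUnion]
      refine ⟨x, ?_, Finset.mem_image_of_mem _ ?_⟩
      · rw [Multiset.mem_toFinset, mem_roots hf]
        exact H x y h hP
      · rw [Multiset.mem_toFinset]
        exact mem_roots_yPoly h.1
  have hinj : Function.Injective
      (fun P : Submodule.torsionBy ℤ W.Point n => (⟨coords (P : W.Point), hmem P⟩ : Cc)) := by
    intro P Q hPQ
    exact Subtype.ext (coords_injective (congrArg Subtype.val hPQ))
  haveI : Finite (Submodule.torsionBy ℤ W.Point n) := Finite.of_injective _ hinj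
  refine ⟨inferInstance, ?_⟩
  calc Nat.card (Submodule.torsionBy ℤ W.Point n) ≤ Nat.card Cc :=
        Nat.card_le_card_of_injective _ hinj
    _ = Cc.card := by simp
    _ ≤ 2 * m + 1 := hCcard

end Fermat.Agent.S51
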