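import Fermat.Agent.S51.Shift

set_option autoImplicit false

namespace Fermat.Agent.S51

open WeierstrassCurve WeierstrassCurve.Affine

variable {K : Type*} [Field K] [DecidableEq K]

theorem exists_rat_of_fixed (x : AlgebraicClosure ℚ)
    (h : ∀ σ : AlgebraicClosure ℚ ≃ₐ[ℚ] AlgebraicClosure ℚ, σ x = x) :
    ∃ q : ℚ, algebraMap ℚ (AlgebraicClosure ℚ) q = x := by
  have : Algebra.IsAlgebraic ℚ (AlgebraicClosure ℚ) := AlgebraicClosure.isAlgebraic ℚ
  have : IsAlgClosure ℚ (AlgebraicClosure ℚ) := ⟨inferInstance, inferInstance⟩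
  have : IsGalois ℚ (AlgebraicClosure ℚ) := inferInstance
  exact (InfiniteGalois.mem_range_algebraMap_iff_fixed x).mpr h

theorem xc_smul (W' : Affine ℚ) (σ : AlgebraicClosure ℚ ≃ₐ[ℚ] AlgebraicClosure ℚ)
    (P : (W'⁄(AlgebraicClosure ℚ)).Point) : xc (σ • P) = σ (xc P) := by
  rcases P with _ | ⟨x, y, h⟩
  · simp [xc, Point.algEquiv_smul_def]
    rfl
  · rfl

theorem xc_neg {W : Affine K} (P : W.Point) : xc (-P) = xc P := by
  rcases P with _ | ⟨x, y, h⟩ <;> rfl

end Fermat.Agent.S51
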