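import Fermat.Agent.S51.Shift

set_option autoImplicit false

namespace Fermat.Agent.S51

theorem exists_generator_of_card_le {p : ℕ} [Fact p.Prime] {V : Type*} [AddCommGroup V]
    [Module (ZMod p) V] [Finite V] (hcard : Nat.card V ≤ p ^ 2) (N : Submodule (ZMod p) V)
    (h0 : N ≠ ⊥) (h1 : N ≠ ⊤) : ∃ v ∈ N, v ≠ 0 ∧ ∀ w ∈ N, ∃ k : ℕ, w = k • v := by
  have hp : p.Prime := Fact.out
  have hfin : Module.Finite (ZMod p) V := Module.Finite.of_finite
  have hV : Module.finrank (ZMod p) V ≤ 2 := by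
    have h := Module.natCard_eq_pow_finrank (K := ZMod p) (V := V)
    rw [Nat.card_zmod] at h
    rw [h] at hcard
    exact (Nat.pow_le_pow_iff_right hp.one_lt).mp hcard
  have hlt : Module.finrank (ZMod p) N < Module.finrank (ZMod p) V := Submodule.finrank_lt h1
  have hpos : 0 < Module.finrank (ZMod p) N := by
    rw [Module.finrank_pos_iff]
    exact (Submodule.nontrivial_iff_ne_bot).mpr h0
  have hone : Module.finrank (ZMod p) N = 1 := by omega
  obtain ⟨v, hv0, hv⟩ := finrank_eq_one_iff'.mp hone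
  refine ⟨v, v.2, fun h => hv0 (Subtype.ext h), fun w hw => ?_⟩
  obtain ⟨c, hc⟩ := hv ⟨w, hw⟩
  refine ⟨c.val, ?_⟩
  have h2 : (c • (v : V)) = w := congrArg Subtype.val hc
  rw [← h2, ← Nat.cast_smul_eq_nsmul (ZMod p), ZMod.natCast_zmod_val]

end Fermat.Agent.S51
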