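import Fermat.Agent.S51.Shift

set_option autoImplicit false

namespace Fermat.Agent.S51

open WeierstrassCurve WeierstrassCurve.Affine Polynomial

variable {K : Type*} [Field K]

/-- `P2` as a polynomial. -/
noncomputable def P2poly (W : WeierstrassCurve K) : K[X] :=
  C 4 * X ^ 3 + C W.b₂ * X ^ 2 + C (2 * W.b₄) * X + C W.b₆

/-- `P3` as a polynomial. -/
noncomputable def P3poly (W : WeierstrassCurve K) : K[X] :=
  C 3 * X ^ 4 + C W.b₂ * X ^ 3 + C (3 * W.b₄) * X ^ 2 + C (3 * W.b₆) * X + C W.b₈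

/-- `B4` as a polynomial. -/
noncomputable def B4poly (W : WeierstrassCurve K) : K[X] :=
  C 6 * X ^ 2 + C W.b₂ * X + C W.b₄

/-- `G5` as a polynomial. -/
noncomputable def G5poly (W : WeierstrassCurve K) : K[X] :=
  P3poly W ^ 3 - B4poly W * P3poly W * P2poly W ^ 2 + P2poly W ^ 4

theorem P2poly_eval (W : WeierstrassCurve K) (x : K) : (P2poly W).eval x = P2 W x := by
  simp [P2poly, P2]

theorem P3poly_eval (W : WeierstrassCurve K) (x : K) : (P3poly W).eval x = P3 W x := by
  simp [P3poly, P3]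

theorem B4poly_eval (W : WeierstrassCurve K) (x : K) : (B4poly W).eval x = B4 W x := by
  simp [B4poly, B4]

theorem G5poly_eval (W : WeierstrassCurve K) (x : K) : (G5poly W).eval x = G5 W x := by
  simp [G5poly, G5, P2poly_eval, P3poly_eval, B4poly_eval]

theorem P3poly_natDegree_le (W : WeierstrassCurve K) : (P3poly W).natDegree ≤ 4 := by
  unfold P3poly; compute_degree

theorem P3poly_coeff (W : WeierstrassCurve K) : (P3poly W).coeff 4 = 3 := by
  unfold P3poly; compute_degree
  all_goals norm_num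

theorem G5poly_natDegree_le (W : WeierstrassCurve K) : (G5poly W).natDegree ≤ 12 := by
  unfold G5poly P3poly P2poly B4poly; compute_degree

theorem G5poly_coeff (W : WeierstrassCurve K) : (G5poly W).coeff 12 = -5 := by
  unfold G5poly P3poly P2poly B4poly; compute_degree
  all_goals norm_num

theorem exists_P3_poly [CharZero K] (W : Affine K) :
    ∃ f : Polynomial K, f ≠ 0 ∧ f.natDegree ≤ 4 ∧ ∀ x, f.eval x = P3 W x := by
  refine ⟨P3poly W, ?_, P3poly_natDegree_le W, P3poly_eval W⟩
  intro h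
  have := P3poly_coeff W
  rw [h] at this
  simp at this

theorem exists_G5_poly [CharZero K] (W : Affine K) :
    ∃ f : Polynomial K, f ≠ 0 ∧ f.natDegree ≤ 12 ∧ ∀ x, f.eval x = G5 W x := by
  refine ⟨G5poly W, ?_, G5poly_natDegree_le W, G5poly_eval W⟩
  intro h
  have := G5poly_coeff W
  rw [h] at this
  simp at this

/-- over an algebraically closed field every `x` is the abscissa of a point. -/
theorem exists_nonsingular_of_x [IsAlgClosed K] {W : Affine K} (hΔ : W.Δ ≠ 0) (x : K) :
    ∃ y : K, W.Nonsingular x y := by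
  obtain ⟨y, hy⟩ := IsAlgClosed.exists_root
    (X ^ 2 + C (W.a₁ * x + W.a₃) * X - C (x ^ 3 + W.a₂ * x ^ 2 + W.a₄ * x + W.a₆) : K[X])
    (by
      have : (X ^ 2 + C (W.a₁ * x + W.a₃) * X - C (x ^ 3 + W.a₂ * x ^ 2 + W.a₄ * x + W.a₆)
        : K[X]).degree = 2 := by compute_degree!
      rw [this]; norm_num)
  refine ⟨y, ?_⟩
  have he : W.Equation x y := by
    rw [equation_iff]
    simp [IsRoot] at hy
    linear_combination hy
  exact (equation_iff_nonsingular_of_Δ_ne_zero hΔ).1 he

theorem exists_P3_root [IsAlgClosed K] [CharZero K] {W : Affine K} (hΔ : W.Δ ≠ 0) :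
    ∃ (x y : K), W.Nonsingular x y ∧ P3 W x = 0 := by
  obtain ⟨x, hx⟩ := IsAlgClosed.exists_root (P3poly W) (by
    intro h
    have h0 := natDegree_eq_of_degree_eq_some h
    have := P3poly_coeff W
    rw [coeff_eq_zero_of_natDegree_lt (by rw [h0]; norm_num)] at this
    exact absurd this.symm (by norm_num))
  obtain ⟨y, hy⟩ := exists_nonsingular_of_x hΔ x
  exact ⟨x, y, hy, by rw [← P3poly_eval]; exact hx⟩

theorem exists_G5_root [IsAlgClosed K] [CharZero K] {W : Affine K} (hΔ : W.Δ ≠ 0) :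
    ∃ (x y : K), W.Nonsingular x y ∧ G5 W x = 0 := by
  obtain ⟨x, hx⟩ := IsAlgClosed.exists_root (G5poly W) (by
    intro h
    have h0 := natDegree_eq_of_degree_eq_some h
    have := G5poly_coeff W
    rw [coeff_eq_zero_of_natDegree_lt (by rw [h0]; norm_num)] at this
    exact absurd this.symm (by norm_num))
  obtain ⟨y, hy⟩ := exists_nonsingular_of_x hΔ x
  exact ⟨x, y, hy, by rw [← G5poly_eval]; exact hx⟩

end Fermat.Agent.S51
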