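import Fermat.Agent.S51.Tors5
import Fermat.Agent.S51.Count
import Fermat.Agent.S51.Line
import Fermat.Agent.S51.Galois
import Fermat.Agent.S51.Roots

set_option autoImplicit false

namespace Fermat.Agent.S51

open WeierstrassCurve WeierstrassCurve.Affine
open scoped WeierstrassCurve.Affine



local notation "Kb" => AlgebraicClosure ℚ

/-- invariance of `d` under multiplication of the generator. -/
theorem d_invariant {K : Type*} [Field K] [DecidableEq K] {W : Affine K} {P : W.Point}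
    (h5 : (5 : ℤ) • P = 0) (k : ℕ) (hk : k • P ≠ 0) :
    (xc ((2 : ℤ) • (k • P)) - xc (k • P)) ^ 2 = (xc ((2 : ℤ) • P) - xc P) ^ 2 := by
  have h5' : (5 : ℕ) • P = 0 := by exact_mod_cast h5
  have hmod : k • P = (k % 5) • P := by
    conv_lhs => rw [← Nat.div_add_mod k 5]
    rw [add_smul, mul_comm, mul_smul, h5', smul_zero, zero_add]
  rw [hmod] at hk ⊢
  have hlt : k % 5 < 5 := Nat.mod_lt _ (by norm_num)
  generalize k % 5 = r at hk hlt ⊢
  interval_cases r
  · exact absurd (zero_smul _ _) hk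
  · rw [one_smul]
  · have e1 : (2 : ℤ) • ((2 : ℕ) • P) = -P := by
      have : (2 : ℤ) • ((2 : ℕ) • P) = (5 : ℤ) • P - P := by
        rw [← natCast_zsmul]; rw [smul_smul]; 
        have : ((5 : ℤ) • P - P) = (4 : ℤ) • P := by
          rw [show (5 : ℤ) = 4 + 1 by norm_num, add_smul, one_smul, add_sub_cancel_right]
        rw [this]; norm_num
      rw [this, h5, zero_sub]
    have e2 : (2 : ℕ) • P = (2 : ℤ) • P := by rw [← natCast_zsmul]; norm_num
    rw [e1, xc_neg, e2]; ring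
  · have e2 : (3 : ℕ) • P = -((2 : ℤ) • P) := by
      have : (3 : ℕ) • P = (5 : ℤ) • P - (2 : ℤ) • P := by
        rw [← natCast_zsmul, ← sub_smul]; norm_num
      rw [this, h5, zero_sub]
    have e1 : (2 : ℤ) • ((3 : ℕ) • P) = P := by
      have : (2 : ℤ) • ((3 : ℕ) • P) = (5 : ℤ) • P + P := by
        rw [← natCast_zsmul, smul_smul]
        rw [show ((2 : ℤ) * ((3 : ℕ) : ℤ)) = 5 + 1 by norm_num, add_smul, one_smul]
      rw [this, h5, zero_add]
    rw [e1, e2, xc_neg]; ring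
  · have e2 : (4 : ℕ) • P = -P := by
      have : (4 : ℕ) • P = (5 : ℤ) • P - P := by
        rw [← natCast_zsmul]
        rw [show (5 : ℤ) = ((4 : ℕ) : ℤ) + 1 by norm_num, add_smul, one_smul, add_sub_cancel_right]
      rw [this, h5, zero_sub]
    rw [e2, smul_neg, xc_neg, xc_neg]

theorem exists_d (W : WeierstrassCurve ℤ) (hΔ : W.Δ ≠ 0) (h : ¬ W.ModRepIsIrreducible 5) :
    ∃ d : ℚ, d ≠ 0 ∧ 5 * d ^ 6 - (W.c₄ : ℚ) * d ^ 5 + 10 * (W.Δ : ℚ) * d ^ 3 + (W.Δ : ℚ) ^ 2 = 0 := by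
  set E : WeierstrassCurve ℚ := W.map (Int.castRingHom ℚ) with hE
  set EK : Affine Kb := E⁄Kb with hEK
  have hc4 : EK.c₄ = algebraMap ℚ Kb (W.c₄ : ℚ) := by
    simp [hEK, hE, WeierstrassCurve.baseChange, WeierstrassCurve.map_c₄]
  have hD : EK.Δ = algebraMap ℚ Kb (W.Δ : ℚ) := by
    simp [hEK, hE, WeierstrassCurve.baseChange, WeierstrassCurve.map_Δ]
  have hΔK : EK.Δ ≠ 0 := by
    rw [hD]
    simpa using hΔ
  -- nontriviality
  obtain ⟨x0, y0, hns0, hG0⟩ := exists_G5_root hΔK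
  have h50 : (5 : ℤ) • Point.some x0 y0 hns0 = 0 := (five_smul_eq_zero_iff hΔK hns0).2 hG0
  have hnt : Nontrivial (Submodule.torsionBy ℤ EK.Point (5 : ℕ)) := by
    refine ⟨⟨⟨Point.some x0 y0 hns0, ?_⟩, 0, ?_⟩⟩
    · rw [Submodule.mem_torsionBy_iff]; exact_mod_cast h50
    · intro h0
      exact Point.some_ne_zero hns0 (congrArg Subtype.val h0)
  -- cardinality
  obtain ⟨f, hf, hdeg, hfe⟩ := exists_G5_poly EK
  obtain ⟨hfin, hcard⟩ := card_torsion_le EK 5 f hf 12 hdeg (fun x y hns h5 => by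
    rw [hfe]; exact (five_smul_eq_zero_iff hΔK hns).1 (by exact_mod_cast h5))
  -- the stable line
  have hN : ∃ N : Submodule (ZMod 5) (Submodule.torsionBy ℤ EK.Point (5 : ℕ)),
      Point.IsGaloisStable ℚ N ∧ N ≠ ⊥ ∧ N ≠ ⊤ := by
    by_contra hcon
    apply h
    refine ⟨hnt, fun N hst => ?_⟩
    by_contra hne
    push Not at hne
    exact hcon ⟨N, hst, hne.1, hne.2⟩
  obtain ⟨N, hst, hN0, hN1⟩ := hN
  have : Fact (Nat.Prime 5) := ⟨by norm_num⟩
  obtain ⟨v, hvN, hv0, hgen⟩ := exists_generator_of_card_le (p := 5) (by norm_num at hcard ⊢; exact hcard) N hN0 hN1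
  set P : EK.Point := (v : EK.Point) with hP
  have hP0 : P ≠ 0 := fun h0 => hv0 (Subtype.ext h0)
  have hP5 : (5 : ℤ) • P = 0 := by
    have := v.2
    rw [Submodule.mem_torsionBy_iff] at this
    rw [hP]
    exact_mod_cast this
  obtain ⟨hne, hrel⟩ := five_tors_rel hΔK hP0 hP5
  -- Galois invariance
  have hfix : ∀ σ : Kb ≃ₐ[ℚ] Kb, σ ((xc ((2 : ℤ) • P) - xc P) ^ 2) = (xc ((2 : ℤ) • P) - xc P) ^ 2 := by
    intro σ
    obtain ⟨k, hk⟩ := hgen (σ • v) (hst σ v hvN)
    have hk' : σ • P = k • P := by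
      have := congrArg Subtype.val hk
      have e : ((k • v : Submodule.torsionBy ℤ EK.Point (5 : ℕ)) : EK.Point) = k • P := by
        rw [hP]; push_cast; rfl
      rw [e] at this
      exact this
    have hkP : k • P ≠ 0 := by
      rw [← hk']
      intro h0
      apply hP0
      have := congrArg (fun Q => σ⁻¹ • Q) h0
      simp only [inv_smul_smul] at this
      rw [this]; exact smul_zero (A := EK.Point) σ⁻¹
    rw [map_pow, map_sub, ← xc_smul, ← xc_smul, Point.algEquiv_smul_zsmul, hk']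
    exact d_invariant hP5 k hkP
  obtain ⟨d, hd⟩ := exists_rat_of_fixed _ hfix
  refine ⟨d, ?_, ?_⟩
  · rintro rfl
    rw [map_zero] at hd
    exact hne (sub_eq_zero.1 (pow_eq_zero_iff (two_ne_zero) |>.1 hd.symm))
  · apply (algebraMap ℚ Kb).injective
    rw [← hd, hc4, hD] at hrel
    simpa using hrel

end Fermat.Agent.S51
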