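import Fermat.Agent.S51.Dup

set_option autoImplicit false

namespace Fermat.Agent.S51

open WeierstrassCurve WeierstrassCurve.Affine

variable {K : Type*} [Field K] [DecidableEq K]

theorem three_smul_iff_add_self {W : Affine K} (P : W.Point) :
    (3 : ℤ) • P = 0 ↔ P + P = -P := by
  rw [show (3 : ℤ) • P = P + P + P by
    rw [show (3 : ℤ) = 1 + 1 + 1 by norm_num, add_smul, add_smul, one_smul]]
  exact add_eq_zero_iff_eq_neg

theorem three_smul_eq_zero_iff {W : Affine K} (hΔ : W.Δ ≠ 0) {x y : K} (h : W.Nonsingular x y) :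
    (3 : ℤ) • Point.some x y h = 0 ↔ P3 W x = 0 := by
  rw [three_smul_iff_add_self]
  constructor
  · intro h3
    have h2 : P2 W x ≠ 0 := by
      intro h0
      have := (add_self_eq_zero_iff h).2 h0
      rw [this] at h3
      exact Point.some_ne_zero h (neg_eq_zero.1 h3.symm)
    obtain ⟨x', y', h', e1, e2⟩ := exists_add_self h h2
    rw [e1, Point.neg_some] at h3
    have hx : x' = x := by
      injection h3
    rw [P3_eq, ← e2, hx]; ring
  · intro h3
    have h2 : P2 W x ≠ 0 := fun h0 => not_P2_P3 hΔ h0 h3
    obtain ⟨x', y', h', e1, e2⟩ := exists_add_self h h2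
    have hx : x' = x := by
      apply mul_right_cancel₀ h2
      rw [P3_eq] at h3
      linear_combination e2 - h3
    subst hx
    rw [e1]
    rcases (Point.X_eq_iff (h₁ := h') (h₂ := h)).1 rfl with h4 | h4
    · exfalso
      rw [h4] at e1
      exact Point.some_ne_zero h (by simpa using e1)
    · exact h4

end Fermat.Agent.S51
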