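import Fermat.Agent.S51.Stable
import Fermat.Agent.S51.Tors3
import Fermat.Agent.S51.Count
import Fermat.Agent.S51.Galois
import Fermat.Agent.S51.Roots

set_option autoImplicit false

namespace Fermat.Agent.S51

open WeierstrassCurve WeierstrassCurve.Affine WeierstrassCurve.Affine.Point

local notation "Qbar" => AlgebraicClosure ℚ

theorem P3_map {R S : Type*} [CommRing R] [CommRing S] (f : R →+* S) (W : WeierstrassCurve R)
    (x : R) : P3 (W.map f) (f x) = f (P3 W x) := by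
  simp [P3, map_ofNat]

theorem exists_xi (W : WeierstrassCurve ℤ) (hΔ : W.Δ ≠ 0) (h : ¬ W.ModRepIsIrreducible 3) :
    ∃ ξ : ℚ, ξ ^ 4 - 6 * (W.c₄ : ℚ) * ξ ^ 2 - 8 * (W.c₆ : ℚ) * ξ - 3 * (W.c₄ : ℚ) ^ 2 = 0 := by
  unfold WeierstrassCurve.ModRepIsIrreducible at h
  have hΔE := Δ_Qbar_ne_zero W hΔ
  set W' : Affine ℚ := W.map (Int.castRingHom ℚ) with hW'
  set E : Affine Qbar := W'⁄Qbar with hE
  have : Fact (Nat.Prime 3) := ⟨by norm_num⟩
  obtain ⟨f, hf0, hfdeg, hfev⟩ := exists_P3_poly E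
  obtain ⟨hfin, hcard⟩ := card_torsion_le E 3 f hf0 4 hfdeg (by
    intro x y hxy h3
    rw [hfev]
    exact (three_smul_eq_zero_iff hΔE hxy).1 (by simpa using h3))
  obtain ⟨x0, y0, hns, hx0⟩ := exists_P3_root hΔE
  obtain ⟨P, hP0, hP3, hst⟩ := exists_stable_point W' 3 hfin (by simpa using hcard)
    ⟨Point.some x0 y0 hns, Point.some_ne_zero _, by
      simpa using (three_smul_eq_zero_iff hΔE hns).2 hx0⟩ h
  have hP3' : (3 : ℤ) • P = 0 := by simpa using hP3
  -- the x-coordinate is Galois-fixed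
  have hfix : ∀ σ : Qbar ≃ₐ[ℚ] Qbar, σ (xc P) = xc P := by
    intro σ
    obtain ⟨k, hk⟩ := hst σ
    rw [← xc_smul, hk]
    have hne : k • P ≠ 0 := hk ▸ smul_ne_zero_of_ne_zero W' σ hP0
    have h3n : 3 • P = 0 := by exact_mod_cast hP3'
    have hkmod : k • P = (k % 3) • P := nsmul_eq_mod_nsmul k h3n
    have hlt : k % 3 < 3 := Nat.mod_lt _ (by norm_num)
    rw [hkmod] at hne ⊢
    interval_cases hk3 : k % 3
    · simp at hne
    · simp
    · have : 2 • P = -P := by
        have : 2 • P + P = 0 := by rw [← h3n]; simp [succ_nsmul]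
        exact eq_neg_of_add_eq_zero_left this
      rw [this, xc_neg]
  obtain ⟨q, hq⟩ := exists_rat_of_fixed _ hfix
  -- P3 vanishes
  have hP3x : P3 E (xc P) = 0 := by
    cases P with
    | zero => exact absurd rfl hP0
    | some x y hxy => exact (three_smul_eq_zero_iff hΔE hxy).1 hP3'
  have hq3 : P3 W' q = 0 := by
    have : P3 E (algebraMap ℚ Qbar q) = algebraMap ℚ Qbar (P3 W' q) := P3_map _ _ _
    rw [hq, hP3x] at this
    exact (map_eq_zero _).1 this.symm
  refine ⟨12 * q + W'.b₂, ?_⟩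
  have := xi_rel W' q
  rw [hq3] at this
  simpa [hW'] using this

end Fermat.Agent.S51
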