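import Mathlib

set_option autoImplicit false

namespace Fermat.Agent.S51

lemma three_not_dvd_sq_add_sq {a d : ℤ} (h : IsCoprime a d) : ¬ (3 : ℤ) ∣ a ^ 2 + d ^ 2 := by
  intro h3
  have key : ∀ a d : ZMod 3, a ^ 2 + d ^ 2 = 0 → a = 0 ∧ d = 0 := by decide
  have h0 : ((a : ZMod 3)) ^ 2 + (d : ZMod 3) ^ 2 = 0 := by
    have := (ZMod.intCast_zmod_eq_zero_iff_dvd (a ^ 2 + d ^ 2) 3).2 (by exact_mod_cast h3)
    push_cast at this
    exact this
  obtain ⟨ha, hd⟩ := key _ _ h0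
  have ha' : (3 : ℤ) ∣ a := by exact_mod_cast (ZMod.intCast_zmod_eq_zero_iff_dvd a 3).1 ha
  have hd' : (3 : ℤ) ∣ d := by exact_mod_cast (ZMod.intCast_zmod_eq_zero_iff_dvd d 3).1 hd
  have hu := h.isUnit_of_dvd' ha' hd'
  rw [Int.isUnit_iff] at hu
  omega

lemma eq_sq_of_nonneg {A p : ℤ} (hA : 0 ≤ A) (h : A = p ^ 2 ∨ A = -p ^ 2) : A = p ^ 2 := by
  rcases h with h | h
  · exact h
  · have h0 : p ^ 2 = 0 := by nlinarith [sq_nonneg p]
    rw [h, h0]; simp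

lemma type_AB {a d t : ℤ} (hc : IsCoprime a d)
    (ht : (a ^ 2 + d ^ 2) * (a ^ 2 + 16 * d ^ 2) = t ^ 2) :
    (∃ p q : ℤ, a ^ 2 + d ^ 2 = p ^ 2 ∧ a ^ 2 + 16 * d ^ 2 = q ^ 2) ∨
    (∃ p q : ℤ, a ^ 2 + d ^ 2 = 5 * p ^ 2 ∧ a ^ 2 + 16 * d ^ 2 = 5 * q ^ 2) := by
  have hc2 : IsCoprime (a ^ 2) (d ^ 2) := hc.pow
  obtain ⟨m, n, hmn⟩ := hc2
  have h3 := three_not_dvd_sq_add_sq hc
  have p3 : Prime (3 : ℤ) := Int.prime_three
  have p5 : Prime (5 : ℤ) := Int.prime_iff_natAbs_prime.2 (by norm_num)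
  by_cases h5 : (5 : ℤ) ∣ a ^ 2 + d ^ 2
  · obtain ⟨A, hA⟩ := h5
    right
    have hA2 : a ^ 2 + 16 * d ^ 2 = 5 * (A + 3 * d ^ 2) := by linarith
    have h25 : (5 : ℤ) ^ 2 ∣ t ^ 2 := ⟨A * (A + 3 * d ^ 2), by rw [← ht, hA, hA2]; ring⟩
    have h5t : (5 : ℤ) ∣ t := (Int.pow_dvd_pow_iff two_ne_zero).1 h25
    obtain ⟨t', rfl⟩ := h5t
    have ht' : A * (A + 3 * d ^ 2) = t' ^ 2 := by
      rw [hA, hA2] at ht
      have : 25 * (A * (A + 3 * d ^ 2)) = 25 * t' ^ 2 := by linarith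
      linarith
    have h3A : IsCoprime A 3 := by
      rw [isCoprime_comm, p3.irreducible.coprime_iff_not_dvd]
      intro h
      exact h3 (hA ▸ Dvd.dvd.mul_left h 5)
    have hcop : IsCoprime A (A + 3 * d ^ 2) := by
      obtain ⟨α, β, hαβ⟩ := h3A
      refine ⟨α + β * (16 * m - n), β * (n - m), ?_⟩
      linear_combination hαβ + 3 * β * hmn - 3 * β * m * hA
    have hA0 : 0 ≤ A := by nlinarith [sq_nonneg a, sq_nonneg d]
    obtain ⟨p, hp⟩ := Int.sq_of_isCoprime hcop ht'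
    obtain ⟨q, hq⟩ := Int.sq_of_isCoprime hcop.symm (by rw [mul_comm]; exact ht')
    have hp' := eq_sq_of_nonneg hA0 hp
    have hq' := eq_sq_of_nonneg (by nlinarith [sq_nonneg d]) hq
    exact ⟨p, q, by rw [hA, hp'], by rw [hA2, hq']⟩
  · left
    have h15 : IsCoprime (a ^ 2 + d ^ 2) 15 := by
      have e : (15 : ℤ) = 3 * 5 := by norm_num
      rw [e]
      refine IsCoprime.mul_right ?_ ?_
      · rw [isCoprime_comm, p3.irreducible.coprime_iff_not_dvd]; exact h3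
      · rw [isCoprime_comm, p5.irreducible.coprime_iff_not_dvd]; exact h5
    have hcop : IsCoprime (a ^ 2 + d ^ 2) (a ^ 2 + 16 * d ^ 2) := by
      obtain ⟨α, β, hαβ⟩ := h15
      refine ⟨α + β * (16 * m - n), β * (n - m), ?_⟩
      linear_combination hαβ + 15 * β * hmn
    obtain ⟨p, hp⟩ := Int.sq_of_isCoprime hcop ht
    obtain ⟨q, hq⟩ := Int.sq_of_isCoprime hcop.symm (by rw [mul_comm]; exact ht)
    exact ⟨p, q, eq_sq_of_nonneg (by positivity) hp, eq_sq_of_nonneg (by positivity) hq⟩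


/-- A positive solution of the concordant system. -/
def Sol (x y z w : ℤ) : Prop :=
  0 < x ∧ 0 < y ∧ 0 < z ∧ 0 < w ∧ x ^ 2 + y ^ 2 = z ^ 2 ∧ x ^ 2 + 16 * y ^ 2 = w ^ 2

lemma lt_of_sq_lt {a b : ℤ} (hb : 0 ≤ b) (h : a ^ 2 < b ^ 2) : a < b :=
  lt_of_pow_lt_pow_left₀ 2 hb h

lemma step_even {x y z w : ℤ} (h : Sol x y z w) (hc : IsCoprime x y) (he : Even x) :
    ∃ x' y' z' w', Sol x' y' z' w' ∧ w' < w := by
  obtain ⟨hx, hy, hz, hw, h1, h2⟩ := h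
  have hyo : Odd y := by
    by_contra hy2
    rw [Int.not_odd_iff_even] at hy2
    have hu := hc.isUnit_of_dvd' he.two_dvd hy2.two_dvd
    rw [Int.isUnit_iff] at hu
    omega
  have hzo : Odd z := by
    have : Odd (z ^ 2) := by
      rw [← h1]
      exact Even.add_odd (he.pow_of_ne_zero two_ne_zero) hyo.pow
    exact (Int.odd_pow' two_ne_zero).1 this
  obtain ⟨k, hk⟩ := he.two_dvd
  obtain ⟨j, hj⟩ := hyo
  obtain ⟨i, hi⟩ := hzo
  have hk2 : k ^ 2 = i * (i + 1) - j * (j + 1) := by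
    subst hk hj hi
    nlinarith
  have hke : Even k := by
    have : Even (k ^ 2) := by
      rw [hk2]
      exact (Int.even_mul_succ_self i).sub (Int.even_mul_succ_self j)
    exact (Int.even_pow' two_ne_zero).1 this
  obtain ⟨x2, hx2⟩ := hke.two_dvd
  have hx4 : x = 4 * x2 := by rw [hk, hx2]; ring
  have h16 : (4 : ℤ) ^ 2 ∣ w ^ 2 := ⟨x2 ^ 2 + y ^ 2, by rw [← h2, hx4]; ring⟩
  obtain ⟨w2, hw2⟩ := (Int.pow_dvd_pow_iff two_ne_zero).1 h16
  refine ⟨y, x2, w2, z, ⟨hy, by omega, by omega, hz, ?_, ?_⟩, ?_⟩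
  · rw [hx4, hw2] at h2
    nlinarith
  · rw [← h1, hx4]; ring
  · apply lt_of_sq_lt hw.le
    nlinarith


lemma exists_coprime_factor {r v : ℤ} (hr : 0 < r) (hv : 0 < v) :
    ∃ a d b : ℤ, 0 < a ∧ 0 < d ∧ 0 < b ∧ IsCoprime a d ∧ r = a * b ∧ v = d * b := by
  have H : 0 < Int.gcd r v := Int.gcd_pos_of_ne_zero_left _ hr.ne'
  obtain ⟨g, a, d, hg, had, hra, hvd⟩ := Int.exists_gcd_one' H
  have hg' : (0 : ℤ) < g := by exact_mod_cast hg
  refine ⟨a, d, g, ?_, ?_, hg', Int.isCoprime_iff_gcd_eq_one.2 had, hra, hvd⟩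
  · by_contra h
    push Not at h
    nlinarith
  · by_contra h
    push Not at h
    nlinarith

lemma one_le_sq {b : ℤ} (hb : 0 < b) : 1 ≤ b ^ 2 := by nlinarith

lemma sq_le_sq_mul {a b : ℤ} (hb : 0 < b) : a ^ 2 ≤ (a * b) ^ 2 := by
  have hb1 := one_le_sq hb
  have := mul_le_mul_of_nonneg_left hb1 (sq_nonneg a)
  calc a ^ 2 = a ^ 2 * 1 := by ring
    _ ≤ a ^ 2 * b ^ 2 := this
    _ = (a * b) ^ 2 := by ring

lemma typeA_bound {a d r s u v : ℤ} (har : a ^ 2 ≤ r ^ 2) (hdv : d ^ 2 ≤ v ^ 2) (hr : 0 < r)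
    (hu : 0 < u) (hv : 0 < v) (hrs : r * s = 4 * (u * v)) :
    a ^ 2 + 16 * d ^ 2 < (r ^ 2 + s ^ 2) ^ 2 := by
  have hr1 := one_le_sq hr
  have hu1 := one_le_sq hu
  have hv1 := one_le_sq hv
  have h4 : r ^ 2 ≤ r ^ 4 := by
    have := mul_le_mul_of_nonneg_left hr1 (sq_nonneg r)
    calc r ^ 2 = r ^ 2 * 1 := by ring
      _ ≤ r ^ 2 * r ^ 2 := this
      _ = r ^ 4 := by ring
  have hrs2 : 16 * v ^ 2 ≤ (r * s) ^ 2 := by
    rw [hrs]
    have := mul_le_mul_of_nonneg_left hu1 (sq_nonneg v)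
    calc 16 * v ^ 2 = 16 * (v ^ 2 * 1) := by ring
      _ ≤ 16 * (v ^ 2 * u ^ 2) := by linarith
      _ = (4 * (u * v)) ^ 2 := by ring
  have e : (r ^ 2 + s ^ 2) ^ 2 = r ^ 4 + 2 * (r * s) ^ 2 + (s ^ 2) ^ 2 := by ring
  rw [e]
  have := sq_nonneg (s ^ 2)
  linarith

lemma w_ge_20 {u v w : ℤ} (hv : 0 < v) (huv : v < u) (hw : 0 < w)
    (h : (u ^ 2 - v ^ 2) ^ 2 + 16 * (2 * u * v) ^ 2 = w ^ 2) : 20 ≤ w := by
  by_contra hlt
  push Not at hlt
  have hw2 : w ^ 2 ≤ 361 := by nlinarith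
  have h64 : 64 * (u * v) ^ 2 ≤ 361 := by nlinarith [sq_nonneg (u ^ 2 - v ^ 2)]
  have huv2 : u * v ≤ 2 := by
    by_contra hc
    push Not at hc
    nlinarith
  have hu2 : u ≤ 2 := by nlinarith
  have hv1 : v = 1 := by omega
  have hu2' : u = 2 := by omega
  subst hv1 hu2'
  norm_num at h
  have h17 : w < 17 ∨ 17 ≤ w := lt_or_ge w 17
  rcases h17 with h17 | h17 <;> nlinarith

lemma sq_of_mul_sq_eq_sq {N Q M : ℤ} (hQ : Q ≠ 0) (h : N * Q ^ 2 = M ^ 2) : ∃ k, N = k ^ 2 := by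
  have hd : Q ^ 2 ∣ M ^ 2 := ⟨N, by rw [← h]; ring⟩
  obtain ⟨k, rfl⟩ := (Int.pow_dvd_pow_iff two_ne_zero).1 hd
  refine ⟨k, ?_⟩
  have hQ2 : Q ^ 2 ≠ 0 := pow_ne_zero 2 hQ
  apply mul_right_cancel₀ hQ2
  rw [h]; ring

lemma typeB_squares {a d b r s u v P Q : ℤ} (hP : 0 < P) (hQ : 0 < Q) (hu : 0 < u) (hr : 0 < r)
    (hp : a ^ 2 + d ^ 2 = 5 * P ^ 2) (hq : a ^ 2 + 16 * d ^ 2 = 5 * Q ^ 2)
    (hra : r = a * b) (hvd : v = d * b) (hrs : r * s = 4 * (u * v))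
    (hstar : u ^ 2 * (a ^ 2 + 16 * d ^ 2) = r ^ 2 * (a ^ 2 + d ^ 2)) :
    ∃ k1 k2 : ℤ, 4 * (r ^ 2 + s ^ 2) + (u ^ 2 + v ^ 2) + 30 * (u * v) = k1 ^ 2 ∧
      4 * (r ^ 2 + s ^ 2) + 16 * (u ^ 2 + v ^ 2) = k2 ^ 2 := by
  have E1 : u * Q = r * P := by
    have h2 : (u * Q) ^ 2 = (r * P) ^ 2 := by
      rw [hp, hq] at hstar
      have : 5 * (u * Q) ^ 2 = 5 * (r * P) ^ 2 := by linear_combination hstar
      linarith
    exact (sq_eq_sq₀ (by positivity) (by positivity)).1 h2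
  have E2 : s * Q = 4 * P * v := by
    apply mul_left_cancel₀ hr.ne'
    linear_combination Q * hrs + 4 * v * E1
  have e1 : (s * Q) ^ 2 = (4 * P * v) ^ 2 := by rw [E2]
  have e2 : (u * Q) ^ 2 = (r * P) ^ 2 := by rw [E1]
  have hPQ : Q ^ 2 + 4 * P ^ 2 = a ^ 2 + 4 * d ^ 2 := by linarith
  have k2' : 5 * (4 * a ^ 2 * Q ^ 2 + 64 * P ^ 2 * d ^ 2 + a ^ 2 * P ^ 2 + d ^ 2 * Q ^ 2)
      = 5 * (a ^ 4 + 26 * a ^ 2 * d ^ 2 + 16 * d ^ 4) := by
    linear_combination (-(4 * a ^ 2 + d ^ 2)) * hq + (-(64 * d ^ 2 + a ^ 2)) * hp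
  have k2 : 4 * a ^ 2 * Q ^ 2 + 64 * P ^ 2 * d ^ 2 + a ^ 2 * P ^ 2 + d ^ 2 * Q ^ 2
      = a ^ 4 + 26 * a ^ 2 * d ^ 2 + 16 * d ^ 4 := by linarith
  have k1 : 25 * P ^ 2 * Q ^ 2 = (a ^ 2 + d ^ 2) * (a ^ 2 + 16 * d ^ 2) := by rw [hp, hq]; ring
  have I1 : (4 * (r ^ 2 + s ^ 2) + (u ^ 2 + v ^ 2) + 30 * (u * v)) * Q ^ 2
      = (b * (5 * P * Q + 3 * a * d)) ^ 2 := by
    have e3 : (u * Q) * (v * Q) = (r * P) * (v * Q) := by rw [E1]
    subst hra hvd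
    linear_combination 4 * e1 + e2 + 30 * e3 + b ^ 2 * k2 - b ^ 2 * k1
  have I2 : (4 * (r ^ 2 + s ^ 2) + 16 * (u ^ 2 + v ^ 2)) * Q ^ 2
      = (2 * b * (a ^ 2 + 4 * d ^ 2)) ^ 2 := by
    subst hra hvd
    linear_combination 4 * e1 + 16 * e2 + 4 * b ^ 2 * (a ^ 2 + 4 * d ^ 2) * hPQ
  obtain ⟨c1, hc1⟩ := sq_of_mul_sq_eq_sq hQ.ne' I1
  obtain ⟨c2, hc2⟩ := sq_of_mul_sq_eq_sq hQ.ne' I2
  exact ⟨c1, c2, hc1, hc2⟩

lemma pos_of_two_mul_pos {y u v : ℤ} (hy : 0 < y) (hyu : y = 2 * u * v) (hu0 : 0 ≤ u) :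
    0 < u ∧ 0 < v := by
  have hu : 0 < u := by
    rcases hu0.lt_or_eq with h | h
    · exact h
    · exfalso; rw [← h] at hyu; simp at hyu; omega
  refine ⟨hu, ?_⟩
  by_contra hv
  push Not at hv
  have := mul_nonneg hu.le (neg_nonneg.2 hv)
  nlinarith

lemma param {x y z w : ℤ} (h : Sol x y z w) (hc : IsCoprime x y) (ho : Odd x) :
    ∃ u v r s : ℤ, 0 < u ∧ 0 < v ∧ 0 < r ∧ 0 < s ∧ v < u ∧ x = u ^ 2 - v ^ 2 ∧ y = 2 * u * v ∧
      z = u ^ 2 + v ^ 2 ∧ w = r ^ 2 + s ^ 2 ∧ r * s = 4 * (u * v) ∧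
      u ^ 2 * (r ^ 2 + 16 * v ^ 2) = r ^ 2 * (r ^ 2 + v ^ 2) := by
  obtain ⟨hx, hy, hz, hw, h1, h2⟩ := h
  have hxm : x % 2 = 1 := Int.odd_iff.1 ho
  have pt1 : PythagoreanTriple x y z := by unfold PythagoreanTriple; linarith
  have pt2 : PythagoreanTriple x (4 * y) w := by unfold PythagoreanTriple; linarith
  have g1 : Int.gcd x y = 1 := Int.isCoprime_iff_gcd_eq_one.1 hc
  have hc4 : IsCoprime x 4 := by
    have h2' : IsCoprime x 2 := by
      rw [isCoprime_comm, Int.prime_two.irreducible.coprime_iff_not_dvd]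
      intro h
      omega
    have := h2'.pow_right (n := 2)
    norm_num at this
    exact this
  have g2 : Int.gcd x (4 * y) = 1 := Int.isCoprime_iff_gcd_eq_one.1 (hc4.mul_right hc)
  obtain ⟨u, v, hxu, hyu, hzu, -, -, hu0⟩ := pt1.coprime_classification' g1 hxm hz
  obtain ⟨r, s, hxr, hyr, hwr, -, -, hr0⟩ := pt2.coprime_classification' g2 hxm hw
  obtain ⟨hu, hv⟩ := pos_of_two_mul_pos hy hyu hu0
  obtain ⟨hr, hs⟩ := pos_of_two_mul_pos (by linarith : 0 < 4 * y) hyr hr0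
  have hrs : r * s = 4 * (u * v) := by linarith
  have hstar : u ^ 2 * (r ^ 2 + 16 * v ^ 2) = r ^ 2 * (r ^ 2 + v ^ 2) := by
    have e : u ^ 2 - v ^ 2 = r ^ 2 - s ^ 2 := by rw [← hxu, ← hxr]
    linear_combination r ^ 2 * e - (r * s + 4 * (u * v)) * hrs
  have huv : v < u := lt_of_sq_lt hu.le (by linarith)
  exact ⟨u, v, r, s, hu, hv, hr, hs, huv, hxu, hyu, hzu, hwr, hrs, hstar⟩

lemma ne_zero_of_sq_add {a d p c : ℤ} (ha : 0 < a) (hp : a ^ 2 + c * d ^ 2 = p) (hc : 0 ≤ c) :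
    p ≠ 0 := by
  have h1 := sq_pos_of_pos ha
  have h2 := mul_nonneg hc (sq_nonneg d)
  intro h
  linarith

lemma split_AB {u v r : ℤ} (hu : 0 < u) (hv : 0 < v) (hr : 0 < r)
    (hstar : u ^ 2 * (r ^ 2 + 16 * v ^ 2) = r ^ 2 * (r ^ 2 + v ^ 2)) :
    ∃ a d b p q g : ℤ, 0 < a ∧ 0 < d ∧ 0 < b ∧ 0 < p ∧ 0 < q ∧ r = a * b ∧ v = d * b ∧
      (g = 1 ∨ g = 5) ∧ a ^ 2 + d ^ 2 = g * p ^ 2 ∧ a ^ 2 + 16 * d ^ 2 = g * q ^ 2 ∧
      u ^ 2 * (a ^ 2 + 16 * d ^ 2) = r ^ 2 * (a ^ 2 + d ^ 2) := by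
  obtain ⟨a, d, b, ha, hd, hb, hcad, hra, hvd⟩ := exists_coprime_factor hr hv
  have hstar' : u ^ 2 * (a ^ 2 + 16 * d ^ 2) = r ^ 2 * (a ^ 2 + d ^ 2) := by
    have hb2 : b ^ 2 ≠ 0 := by positivity
    apply mul_left_cancel₀ hb2
    have e1 : r ^ 2 + 16 * v ^ 2 = b ^ 2 * (a ^ 2 + 16 * d ^ 2) := by rw [hra, hvd]; ring
    have e2 : r ^ 2 + v ^ 2 = b ^ 2 * (a ^ 2 + d ^ 2) := by rw [hra, hvd]; ring
    rw [e1, e2] at hstar
    linear_combination hstar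
  have hdvd : u ^ 2 ∣ (r * (a ^ 2 + d ^ 2)) ^ 2 :=
    ⟨(a ^ 2 + d ^ 2) * (a ^ 2 + 16 * d ^ 2), by linear_combination -(a ^ 2 + d ^ 2) * hstar'⟩
  obtain ⟨t, ht⟩ := (Int.pow_dvd_pow_iff two_ne_zero).1 hdvd
  have hprod : (a ^ 2 + d ^ 2) * (a ^ 2 + 16 * d ^ 2) = t ^ 2 := by
    have hu2 : u ^ 2 ≠ 0 := by positivity
    apply mul_left_cancel₀ hu2
    have : (r * (a ^ 2 + d ^ 2)) ^ 2 = (u * t) ^ 2 := by rw [ht]
    linear_combination (a ^ 2 + d ^ 2) * hstar' + this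
  rcases type_AB hcad hprod with ⟨p, q, hp, hq⟩ | ⟨p, q, hp, hq⟩
  · have hp0 : p ≠ 0 := by
      have := ne_zero_of_sq_add (c := 1) (p := p ^ 2) ha (by rw [one_mul]; exact hp) (by norm_num)
      exact fun h => this (by rw [h]; ring)
    have hq0 : q ≠ 0 := by
      have := ne_zero_of_sq_add (c := 16) ha hq (by norm_num)
      exact fun h => this (by rw [h]; ring)
    exact ⟨a, d, b, |p|, |q|, 1, ha, hd, hb, abs_pos.2 hp0, abs_pos.2 hq0, hra, hvd, Or.inl rfl,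
      by rw [sq_abs, one_mul]; exact hp, by rw [sq_abs, one_mul]; exact hq, hstar'⟩
  · have hp0 : p ≠ 0 := by
      have := ne_zero_of_sq_add (c := 1) (p := 5 * p ^ 2) ha (by rw [one_mul]; exact hp) (by norm_num)
      exact fun h => this (by rw [h]; ring)
    have hq0 : q ≠ 0 := by
      have := ne_zero_of_sq_add (c := 16) ha hq (by norm_num)
      exact fun h => this (by rw [h]; ring)
    exact ⟨a, d, b, |p|, |q|, 5, ha, hd, hb, abs_pos.2 hp0, abs_pos.2 hq0, hra, hvd, Or.inr rfl,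
      by rw [sq_abs]; exact hp, by rw [sq_abs]; exact hq, hstar'⟩

lemma typeB_bound {z w : ℤ} (hw20 : 20 ≤ w) (hzw : z < w) : 4 * w + 16 * z < w ^ 2 := by
  have : 20 * w ≤ w * w := mul_le_mul_of_nonneg_right hw20 (by linarith)
  rw [sq]
  linarith

lemma step_odd {x y z w : ℤ} (h : Sol x y z w) (hc : IsCoprime x y) (ho : Odd x) :
    ∃ x' y' z' w', Sol x' y' z' w' ∧ w' < w := by
  obtain ⟨u, v, r, s, hu, hv, hr, hs, huv, hxu, hyu, hzu, hwr, hrs, hstar⟩ := param h hc ho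
  obtain ⟨hx, hy, hz, hw, h1, h2⟩ := h
  obtain ⟨a, d, b, p, q, g, ha, hd, hb, hp0, hq0, hra, hvd, hg, hp, hq, hstar'⟩ :=
    split_AB hu hv hr hstar
  rcases hg with rfl | rfl
  · -- type A
    rw [one_mul] at hp hq
    refine ⟨a, d, p, q, ⟨ha, hd, hp0, hq0, hp, hq⟩, ?_⟩
    apply lt_of_sq_lt hw.le
    rw [← hq, hwr]
    exact typeA_bound (hra ▸ sq_le_sq_mul hb) (hvd ▸ sq_le_sq_mul hb) hr hu hv hrs
  · -- type B
    obtain ⟨k1, k2, hk1, hk2⟩ := typeB_squares hp0 hq0 hu hr hp hq hra hvd hrs hstar'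
    have hk10 : k1 ≠ 0 := by
      have h0 : 0 < 4 * (r ^ 2 + s ^ 2) + (u ^ 2 + v ^ 2) + 30 * (u * v) := by positivity
      rw [hk1] at h0
      rintro rfl
      simp at h0
    have hk20 : k2 ≠ 0 := by
      have h0 : 0 < 4 * (r ^ 2 + s ^ 2) + 16 * (u ^ 2 + v ^ 2) := by positivity
      rw [hk2] at h0
      rintro rfl
      simp at h0
    refine ⟨2 * (r + s), u - v, |k1|, |k2|, ⟨by linarith, by linarith, abs_pos.2 hk10,
      abs_pos.2 hk20, ?_, ?_⟩, ?_⟩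
    · rw [sq_abs, ← hk1]
      linear_combination 8 * hrs
    · rw [sq_abs, ← hk2]
      linear_combination 8 * hrs
    · apply lt_of_sq_lt hw.le
      rw [sq_abs, ← hk2]
      have hw20 : 20 ≤ w := w_ge_20 hv huv hw (by rw [← hxu, ← hyu]; exact h2)
      have hzw : z < w := by
        apply lt_of_sq_lt hw.le
        have := sq_pos_of_pos hy
        linarith
      rw [← hwr, ← hzu]
      exact typeB_bound hw20 hzw

lemma step {x y z w : ℤ} (h : Sol x y z w) : ∃ x' y' z' w', Sol x' y' z' w' ∧ w' < w := by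
  obtain ⟨hx, hy, hz, hw, h1, h2⟩ := h
  obtain ⟨a, d, b, ha, hd, hb, hcad, hxa, hyd⟩ := exists_coprime_factor hx hy
  have hbz : b ^ 2 ∣ z ^ 2 := ⟨a ^ 2 + d ^ 2, by rw [← h1, hxa, hyd]; ring⟩
  have hbw : b ^ 2 ∣ w ^ 2 := ⟨a ^ 2 + 16 * d ^ 2, by rw [← h2, hxa, hyd]; ring⟩
  obtain ⟨z', hz'⟩ := (Int.pow_dvd_pow_iff two_ne_zero).1 hbz
  obtain ⟨w', hw'⟩ := (Int.pow_dvd_pow_iff two_ne_zero).1 hbw
  have hb2 : b ^ 2 ≠ 0 := by positivity
  have hz'0 : 0 < z' := by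
    by_contra hc
    push Not at hc
    nlinarith
  have hw'0 : 0 < w' := by
    by_contra hc
    push Not at hc
    nlinarith
  have hS : Sol a d z' w' := by
    refine ⟨ha, hd, hz'0, hw'0, ?_, ?_⟩
    · apply mul_left_cancel₀ hb2
      rw [hxa, hyd, hz'] at h1
      linear_combination h1
    · apply mul_left_cancel₀ hb2
      rw [hxa, hyd, hw'] at h2
      linear_combination h2
  have hle : w' ≤ w := by
    rw [hw']
    nlinarith
  rcases Int.even_or_odd a with he | ho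
  · obtain ⟨x1, y1, z1, w1, hS1, hlt⟩ := step_even hS hcad he
    exact ⟨x1, y1, z1, w1, hS1, lt_of_lt_of_le hlt hle⟩
  · obtain ⟨x1, y1, z1, w1, hS1, hlt⟩ := step_odd hS hcad ho
    exact ⟨x1, y1, z1, w1, hS1, lt_of_lt_of_le hlt hle⟩

lemma no_sol_aux : ∀ (n : ℕ) (x y z w : ℤ), Sol x y z w → w < n → False := by
  intro n
  induction n with
  | zero =>
    intro x y z w h hn
    have := h.2.2.2.1
    simp at hn
    omega
  | succ n ih =>
    intro x y z w h hn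
    obtain ⟨x1, y1, z1, w1, hS1, hlt⟩ := step h
    apply ih x1 y1 z1 w1 hS1
    push_cast at hn
    omega

/-- `16` is not a concordant number. -/
theorem concordant16 (x y z w : ℤ) (h1 : x ^ 2 + y ^ 2 = z ^ 2) (h2 : x ^ 2 + 16 * y ^ 2 = w ^ 2) :
    x = 0 ∨ y = 0 := by
  by_contra hcon
  push Not at hcon
  obtain ⟨hx, hy⟩ := hcon
  have hz : z ≠ 0 := by
    rintro rfl
    have := sq_pos_of_ne_zero hx
    nlinarith [sq_nonneg y]
  have hw : w ≠ 0 := by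
    rintro rfl
    have := sq_pos_of_ne_zero hx
    nlinarith [sq_nonneg y]
  have hS : Sol |x| |y| |z| |w| :=
    ⟨abs_pos.2 hx, abs_pos.2 hy, abs_pos.2 hz, abs_pos.2 hw, by simp only [sq_abs]; exact h1,
      by simp only [sq_abs]; exact h2⟩
  exact no_sol_aux (|w| + 1).toNat _ _ _ _ hS (by
    have : (0 : ℤ) ≤ |w| + 1 := by positivity
    rw [Int.toNat_of_nonneg this]
    omega)


theorem concordant16_rat (X Y Z W : ℚ) (h1 : X ^ 2 + Y ^ 2 = Z ^ 2)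
    (h2 : X ^ 2 + 16 * Y ^ 2 = W ^ 2) : X = 0 ∨ Y = 0 := by
  set D : ℚ := (X.den : ℚ) * Y.den * Z.den * W.den with hD
  have hD0 : D ≠ 0 := by
    have := X.den_ne_zero
    have := Y.den_ne_zero
    have := Z.den_ne_zero
    have := W.den_ne_zero
    positivity
  have hx : (((X.num * (Y.den * Z.den * W.den) : ℤ)) : ℚ) = X * D := by
    push_cast
    rw [← Rat.mul_den_eq_num X, hD]; ring
  have hy : (((Y.num * (X.den * Z.den * W.den) : ℤ)) : ℚ) = Y * D := by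
    push_cast
    rw [← Rat.mul_den_eq_num Y, hD]; ring
  have hz : (((Z.num * (X.den * Y.den * W.den) : ℤ)) : ℚ) = Z * D := by
    push_cast
    rw [← Rat.mul_den_eq_num Z, hD]; ring
  have hw : (((W.num * (X.den * Y.den * Z.den) : ℤ)) : ℚ) = W * D := by
    push_cast
    rw [← Rat.mul_den_eq_num W, hD]; ring
  have e1 : (X.num * (Y.den * Z.den * W.den) : ℤ) ^ 2 + (Y.num * (X.den * Z.den * W.den) : ℤ) ^ 2
      = (Z.num * (X.den * Y.den * W.den) : ℤ) ^ 2 := by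
    have : (((X.num * (Y.den * Z.den * W.den) : ℤ)) : ℚ) ^ 2
        + (((Y.num * (X.den * Z.den * W.den) : ℤ)) : ℚ) ^ 2
        = (((Z.num * (X.den * Y.den * W.den) : ℤ)) : ℚ) ^ 2 := by
      rw [hx, hy, hz]; linear_combination D ^ 2 * h1
    exact_mod_cast this
  have e2 : (X.num * (Y.den * Z.den * W.den) : ℤ) ^ 2
      + 16 * (Y.num * (X.den * Z.den * W.den) : ℤ) ^ 2
      = (W.num * (X.den * Y.den * Z.den) : ℤ) ^ 2 := by
    have : (((X.num * (Y.den * Z.den * W.den) : ℤ)) : ℚ) ^ 2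
        + 16 * (((Y.num * (X.den * Z.den * W.den) : ℤ)) : ℚ) ^ 2
        = (((W.num * (X.den * Y.den * Z.den) : ℤ)) : ℚ) ^ 2 := by
      rw [hx, hy, hw]; linear_combination D ^ 2 * h2
    exact_mod_cast this
  rcases concordant16 _ _ _ _ e1 e2 with h | h
  · left
    rw [h] at hx
    have : X * D = 0 := by rw [← hx]; simp
    exact (mul_eq_zero.1 this).resolve_right hD0
  · right
    rw [h] at hy
    have : Y * D = 0 := by rw [← hy]; simp
    exact (mul_eq_zero.1 this).resolve_right hD0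

/-- The rational points of the conductor-15 curve `y² = x (x+1) (x+16)`. -/
theorem points_15a3 (x y : ℚ) (h : y ^ 2 = x * (x + 1) * (x + 16)) :
    x = 0 ∨ x = -1 ∨ x = -16 ∨ x = 4 ∨ x = -4 := by
  have h1 : (x ^ 2 - 16) ^ 2 + (2 * y) ^ 2 = (x ^ 2 + 2 * x + 16) ^ 2 := by
    linear_combination 4 * h
  have h2 : (x ^ 2 - 16) ^ 2 + 16 * (2 * y) ^ 2 = (x ^ 2 + 32 * x + 16) ^ 2 := by
    linear_combination 64 * h
  rcases concordant16_rat _ _ _ _ h1 h2 with h0 | h0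
  · have : (x - 4) * (x + 4) = 0 := by linear_combination h0
    rcases mul_eq_zero.1 this with h4 | h4
    · right; right; right; left; linarith
    · right; right; right; right; linarith
  · have hy : y = 0 := by linarith
    rw [hy] at h
    have : x * (x + 1) * (x + 16) = 0 := by linear_combination -h
    rcases mul_eq_zero.1 this with h4 | h4
    · rcases mul_eq_zero.1 h4 with h5 | h5
      · left; exact h5
      · right; left; linarith
    · right; right; left; linarith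

theorem points_k (k w : ℚ) (h : w ^ 2 = (k - 1) * (4 * k - 3) * (k + 3)) :
    k = 1 ∨ k = 3 / 4 ∨ k = -3 ∨ k = 2 ∨ k = 0 := by
  have h' : (4 * w) ^ 2 = (4 * k - 4) * ((4 * k - 4) + 1) * ((4 * k - 4) + 16) := by
    linear_combination 16 * h
  rcases points_15a3 _ _ h' with h0 | h0 | h0 | h0 | h0
  · left; linarith
  · right; left; linarith
  · right; right; left; linarith
  · right; right; right; left; linarith
  · right; right; right; right; linarith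


/-- The rational points of the `(9,16,25)` conductor-15 curve `y² = w (w-36) (w-100)`. -/
theorem ratPoints_A (w y : ℚ) (h : y ^ 2 = w * (w - 36) * (w - 100)) :
    w = 0 ∨ w = 36 ∨ w = 100 ∨ w = 20 ∨ w = 180 := by
  by_cases hw : w = 0
  · left; exact hw
  right
  have key : (y * (w ^ 2 - 3600) / (64 * w ^ 2)) ^ 2
      = ((w - 36) * (w - 100) / (16 * w)) * ((w - 36) * (w - 100) / (16 * w) + 1)
        * ((w - 36) * (w - 100) / (16 * w) + 16) := by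
    field_simp
    linear_combination 4096 * (w ^ 2 - 3600) ^ 2 * h
  have hX : ∀ c : ℚ, (w - 36) * (w - 100) / (16 * w) = c → (w - 36) * (w - 100) = 16 * c * w := by
    intro c hc
    field_simp at hc
    linear_combination hc
  rcases points_15a3 _ _ key with h0 | h0 | h0 | h0 | h0
  · have h1 := hX _ h0
    have : (w - 36) * (w - 100) = 0 := by linear_combination h1
    rcases mul_eq_zero.1 this with h2 | h2
    · left; linarith
    · right; left; linarith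
  · exfalso
    have h1 := hX _ h0
    have h2 : (w - 60) ^ 2 = 0 := by linear_combination h1
    have h3 : w = 60 := by
      have := pow_eq_zero_iff (two_ne_zero) |>.1 h2
      linarith
    rw [h3] at h
    nlinarith [sq_nonneg y]
  · exfalso
    have h1 := hX _ h0
    have h2 : (w + 60) ^ 2 = 0 := by linear_combination h1
    have h3 : w = -60 := by
      have := pow_eq_zero_iff (two_ne_zero) |>.1 h2
      linarith
    rw [h3] at h
    nlinarith [sq_nonneg y]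
  · have h1 := hX _ h0
    have : (w - 20) * (w - 180) = 0 := by linear_combination h1
    rcases mul_eq_zero.1 this with h2 | h2
    · right; right; left; linarith
    · right; right; right; linarith
  · exfalso
    have h1 := hX _ h0
    nlinarith [sq_nonneg (w - 36)]

end Fermat.Agent.S51
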