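import Mathlib

set_option autoImplicit false

namespace Fermat.Agent.S51

/-- elimination step in the variables `b`, `k`. -/
theorem phi_of_bk {F : Type*} [Field F] (b k T κ : F) (hb : b ≠ 0) (hk : k ≠ 0) (hk1 : k - 1 ≠ 0)
    (hT : T = b - 1 / b) (hκ : κ = k ^ 2 / (k - 1))
    (hS : b ^ 2 + (3 * (k - 1) ^ 2 / k) * b - (k - 1) ^ 3 = 0) :
    κ * T ^ 2 + 3 * κ * (κ - 3) * T + 9 - κ * (κ - 4) * (κ - 1) ^ 2 = 0 := by
  subst hT hκ
  have key : (k ^ 2 / (k - 1)) * (b - 1 / b) ^ 2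
      + 3 * (k ^ 2 / (k - 1)) * ((k ^ 2 / (k - 1)) - 3) * (b - 1 / b) + 9
      - (k ^ 2 / (k - 1)) * ((k ^ 2 / (k - 1)) - 4) * ((k ^ 2 / (k - 1)) - 1) ^ 2
      = (k ^ 2 / (k - 1) ^ 4) * ((b ^ 2 + (3 * (k - 1) ^ 2 / k) * b - (k - 1) ^ 3)
          + 2 * ((k - 1) ^ 3 - 1) - (b - 1 / b) * ((b - 1 / b) + 3 * (k - 1) ^ 2 / k))
        * (b ^ 2 + (3 * (k - 1) ^ 2 / k) * b - (k - 1) ^ 3) := by
    field_simp
    ring
  rw [key, hS, mul_zero]

/-- Pure algebra: the two modular identities for a `5`-torsion point and a `3`-torsion point,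
in coordinates shifted to the `5`-torsion point. -/
theorem key_identity {F : Type*} [Field F] (β2 β4 β6 β8 e ξ : F) (he : e ≠ 0) (hβ6 : β6 ≠ 0)
    (hξ : ξ ≠ 0) (hξe : ξ ≠ e)
    (r1 : β8 = -e * β6) (r2 : e ^ 3 = β4 * e + β6) (r3 : 4 * β8 = β2 * β6 - β4 ^ 2)
    (r4 : 3 * ξ ^ 4 + β2 * ξ ^ 3 + 3 * β4 * ξ ^ 2 + 3 * β6 * ξ + β8 = 0)
    (Δ t κ : F) (hΔ : Δ = -β2 ^ 2 * β8 - 8 * β4 ^ 3 - 27 * β6 ^ 2 + 9 * β2 * β4 * β6)
    (ht : t = Δ / (e ^ 2) ^ 3) (hκ : κ = -e ^ 2 / (ξ * (ξ - e))) :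
    β2 ^ 2 - 24 * β4 = e ^ 2 * (t ^ 2 + 10 * t + 5) ∧
      κ * (t + 11) ^ 2 + 3 * κ * (κ - 3) * (t + 11) + 9 - κ * (κ - 4) * (κ - 1) ^ 2 = 0 := by
  have hξe' : ξ - e ≠ 0 := sub_ne_zero.2 hξe
  have heξ : e - ξ ≠ 0 := sub_ne_zero.2 (Ne.symm hξe)
  -- parametrise
  obtain ⟨lam, hlam⟩ : ∃ lam, lam = β6 / e ^ 2 := ⟨_, rfl⟩
  have hlam0 : lam ≠ 0 := by
    rw [hlam]; exact div_ne_zero hβ6 (pow_ne_zero 2 he)
  have h6 : β6 = lam * e ^ 2 := by rw [hlam]; field_simp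
  have h4 : β4 = e * (e - lam) := by
    have : β4 * e = e * (e - lam) * e := by rw [h6] at r2; linear_combination -r2
    exact mul_right_cancel₀ he this
  have h8 : β8 = -lam * e ^ 3 := by rw [r1, h6]; ring
  have h2 : β2 = (e ^ 2 - 6 * lam * e + lam ^ 2) / lam := by
    have : β2 * lam * e ^ 2 = (e ^ 2 - 6 * lam * e + lam ^ 2) * e ^ 2 := by
      rw [h6, h4, h8] at r3
      linear_combination -r3
    rw [eq_div_iff hlam0]
    exact mul_right_cancel₀ (pow_ne_zero 2 he) this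
  have htt : t = e / lam - 1 / (e / lam) - 11 := by
    rw [ht, hΔ, h2, h4, h6, h8]
    field_simp
    ring
  refine ⟨?_, ?_⟩
  · rw [htt, h2, h4]
    field_simp
    ring
  · refine phi_of_bk (e / lam) (e / ξ) (t + 11) κ (div_ne_zero he hlam0) (div_ne_zero he hξ) ?_ ?_ ?_ ?_
    · intro h
      apply heξ
      field_simp at h
      linear_combination h
    · rw [htt]; ring
    · rw [hκ]
      field_simp
      ring
    · rw [h2, h4, h6, h8] at r4
      field_simp at r4 ⊢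
      linear_combination r4

/-- Rational points of `X₀(15)` in the model `z² = κ(κ-4)(4κ+9)`, deduced from the `2`-isogenous
curve `y² = x(x+1)(x+16)`. -/
theorem points_X015
    (H : ∀ x y : ℚ, y ^ 2 = x * (x + 1) * (x + 16) → x = 0 ∨ x = -1 ∨ x = -16 ∨ x = 4 ∨ x = -4)
    (κ z : ℚ) (h : z ^ 2 = κ * (κ - 4) * (4 * κ + 9)) :
    κ = 0 ∨ κ = 4 ∨ κ = -9 / 4 ∨ κ = 9 ∨ κ = -1 := by
  by_cases hX : 4 * κ + 9 = 0
  · right; right; left; linarith
  have hX' : 4 * κ + 9 ≠ 0 := hX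
  have hx0 : (0 : ℚ) ≤ 4 * z ^ 2 / (4 * κ + 9) ^ 2 := by positivity
  have hxe : 4 * z ^ 2 / (4 * κ + 9) ^ 2 = 4 * κ * (κ - 4) / (4 * κ + 9) := by
    rw [h]; field_simp
  have hy : (z * (225 - (4 * κ + 9) ^ 2) / (2 * (4 * κ + 9) ^ 2)) ^ 2
      = (4 * z ^ 2 / (4 * κ + 9) ^ 2) * (4 * z ^ 2 / (4 * κ + 9) ^ 2 + 1)
        * (4 * z ^ 2 / (4 * κ + 9) ^ 2 + 16) := by
    rw [hxe]
    obtain ⟨X, hXd⟩ : ∃ X, X = 4 * κ + 9 := ⟨_, rfl⟩
    have hκX : κ = (X - 9) / 4 := by rw [hXd]; ring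
    rw [← hXd] at hX' h ⊢
    rw [div_pow, mul_pow, h, hκX]
    field_simp
    ring
  rcases H _ _ hy with h0 | h0 | h0 | h0 | h0
  · rw [hxe, div_eq_zero_iff] at h0
    rcases h0 with h0 | h0
    · rcases mul_eq_zero.1 h0 with h1 | h1
      · left; linarith
      · right; left; linarith
    · exact absurd h0 hX
  · rw [h0] at hx0; norm_num at hx0
  · rw [h0] at hx0; norm_num at hx0
  · rw [hxe, div_eq_iff hX] at h0
    have : (κ - 9) * (κ + 1) = 0 := by linear_combination h0 / 4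
    rcases mul_eq_zero.1 this with h1 | h1
    · right; right; right; left; linarith
    · right; right; right; right; linarith
  · rw [h0] at hx0; norm_num at hx0

/-- arithmetic: `A * c4³ = 5 * B * Δ` or `25 * B * Δ` contradicts semistability at `5`. -/
theorem five_contra (c4 Δ A B : ℤ) (hss : (5 : ℤ) ∣ Δ → ¬ (5 : ℤ) ∣ c4)
    (hA : ¬ (5 : ℤ) ∣ A) (hB : ¬ (5 : ℤ) ∣ B)
    (h : A * c4 ^ 3 = 5 * (B * Δ) ∨ A * c4 ^ 3 = 25 * (B * Δ)) : False := by
  have hp : Prime (5 : ℤ) := by norm_num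
  have h5 : (5 : ℤ) ∣ A * c4 ^ 3 := by
    rcases h with h | h
    · exact ⟨B * Δ, h⟩
    · exact ⟨5 * (B * Δ), by rw [h]; ring⟩
  have h1 : (5 : ℤ) ∣ c4 := hp.dvd_of_dvd_pow ((hp.dvd_or_dvd h5).resolve_left hA)
  obtain ⟨a, ha⟩ := h1
  have h2 : (5 : ℤ) ∣ B * Δ := by
    rcases h with h | h
    · refine ⟨5 * (A * a ^ 3), ?_⟩
      have : 5 * (B * Δ) = 5 * (5 * (5 * (A * a ^ 3))) := by rw [← h, ha]; ring
      exact mul_left_cancel₀ (by norm_num) this
    · refine ⟨A * a ^ 3, ?_⟩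
      have : 25 * (B * Δ) = 25 * (5 * (A * a ^ 3)) := by rw [← h, ha]; ring
      exact mul_left_cancel₀ (by norm_num) this
  exact hss ((hp.dvd_or_dvd h2).resolve_left hB) ⟨a, ha⟩

theorem core_false
    (H : ∀ x y : ℚ, y ^ 2 = x * (x + 1) * (x + 16) → x = 0 ∨ x = -1 ∨ x = -16 ∨ x = 4 ∨ x = -4)
    (c4 c6 Δ : ℤ) (hΔ : Δ ≠ 0) (hrel : c4 ^ 3 - c6 ^ 2 = 1728 * Δ)
    (hss : ∀ p : ℕ, p.Prime → (p : ℤ) ∣ Δ → ¬ (p : ℤ) ∣ c4)
    (d G0 t κ : ℚ) (hd : d ≠ 0) (hG : G0 ≠ 0) (ht : t = Δ / d ^ 3) (hκ : κ = -d / G0)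
    (B1 : (c4 : ℚ) = d * (t ^ 2 + 10 * t + 5))
    (B2 : κ * (t + 11) ^ 2 + 3 * κ * (κ - 3) * (t + 11) + 9 - κ * (κ - 4) * (κ - 1) ^ 2 = 0) :
    False := by
  have hΔQ : (Δ : ℚ) ≠ 0 := by exact_mod_cast hΔ
  have ht0 : t ≠ 0 := by rw [ht]; exact div_ne_zero hΔQ (pow_ne_zero 3 hd)
  have hκ0 : κ ≠ 0 := by rw [hκ]; exact div_ne_zero (neg_ne_zero.2 hd) hG
  have hj : (c4 : ℚ) ^ 3 * t = Δ * (t ^ 2 + 10 * t + 5) ^ 3 := by
    have hΔd : (Δ : ℚ) = t * d ^ 3 := by rw [ht]; field_simp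
    rw [B1, hΔd]; ring
  have hss5 : (5 : ℤ) ∣ Δ → ¬ (5 : ℤ) ∣ c4 := hss 5 (by norm_num)
  -- the possible values of `t`
  have htval : t = -25 / 2 ∨ t = -25 / 8 ∨ t = -40 ∨ t = -10 ∨ t = -8 := by
    by_cases hk1 : κ = 1
    · right; right; right; right
      rw [hk1] at B2
      have : (t + 8) ^ 2 = 0 := by linear_combination B2
      have := pow_eq_zero_iff (two_ne_zero) |>.1 this
      linarith
    · have hk1' : κ - 1 ≠ 0 := sub_ne_zero.2 hk1
      have hz : ((2 * κ * (t + 11) + 3 * κ * (κ - 3)) / (κ - 1)) ^ 2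
          = κ * (κ - 4) * (4 * κ + 9) := by
        rw [div_pow, div_eq_iff (pow_ne_zero 2 hk1')]
        linear_combination 4 * κ * B2
      rcases points_X015 H _ _ hz with h | h | h | h | h
      · exact absurd h hκ0
      · left
        rw [h] at B2
        have : (2 * t + 25) ^ 2 = 0 := by linear_combination B2
        have := pow_eq_zero_iff (two_ne_zero) |>.1 this
        linarith
      · right; left
        rw [h] at B2
        have : (8 * t + 25) ^ 2 = 0 := by linear_combination (-256 / 9) * B2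
        have := pow_eq_zero_iff (two_ne_zero) |>.1 this
        linarith
      · right; right; left
        rw [h] at B2
        have : t * (t + 40) = 0 := by linear_combination B2 / 9
        rcases mul_eq_zero.1 this with h1 | h1
        · exact absurd h1 ht0
        · linarith
      · right; right; right; left
        rw [h] at B2
        have : t * (t + 10) = 0 := by linear_combination -B2
        rcases mul_eq_zero.1 this with h1 | h1
        · exact absurd h1 ht0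
        · linarith
  rcases htval with h | h | h | h | h
  · rw [h] at hj
    have hZ : -32 * c4 ^ 3 = 5 * (24389 * Δ) := by
      have : (-32 : ℚ) * (c4 : ℚ) ^ 3 = 5 * (24389 * (Δ : ℚ)) := by
        linear_combination (64 / 25) * hj
      exact_mod_cast this
    exact five_contra c4 Δ (-32) 24389 hss5 (by norm_num) (by norm_num) (Or.inl hZ)
  · rw [h] at hj
    have hZ : 32768 * c4 ^ 3 = 5 * (9393931 * Δ) := by
      have : (32768 : ℚ) * (c4 : ℚ) ^ 3 = 5 * (9393931 * (Δ : ℚ)) := by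
        linear_combination (-262144 / 25) * hj
      exact_mod_cast this
    exact five_contra c4 Δ 32768 9393931 hss5 (by norm_num) (by norm_num) (Or.inl hZ)
  · rw [h] at hj
    have hZ : -8 * c4 ^ 3 = 25 * (13997521 * Δ) := by
      have : (-8 : ℚ) * (c4 : ℚ) ^ 3 = 25 * (13997521 * (Δ : ℚ)) := by
        linear_combination hj / 5
      exact_mod_cast this
    exact five_contra c4 Δ (-8) 13997521 hss5 (by norm_num) (by norm_num) (Or.inr hZ)
  · rw [h] at hj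
    have hZ : -2 * c4 ^ 3 = 25 * (1 * Δ) := by
      have : (-2 : ℚ) * (c4 : ℚ) ^ 3 = 25 * (1 * (Δ : ℚ)) := by
        linear_combination hj / 5
      exact_mod_cast this
    exact five_contra c4 Δ (-2) 1 hss5 (by norm_num) (by norm_num) (Or.inr hZ)
  · rw [h] at hj
    have hZ : 8 * c4 ^ 3 = 1331 * Δ := by
      have : (8 : ℚ) * (c4 : ℚ) ^ 3 = 1331 * (Δ : ℚ) := by linear_combination -hj
      exact_mod_cast this
    have hp : Prime (11 : ℤ) := by norm_num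
    have h11 : (11 : ℤ) ∣ c4 := hp.dvd_of_dvd_pow ((hp.dvd_or_dvd (show (11 : ℤ) ∣ 8 * c4 ^ 3 from ⟨121 * Δ, by rw [hZ]; ring⟩)).resolve_left (by norm_num))
    obtain ⟨a, ha⟩ := h11
    have hΔa : Δ = 8 * a ^ 3 := by
      rw [ha] at hZ
      have h' : 1331 * (8 * a ^ 3) = 1331 * Δ := by linear_combination hZ
      exact (mul_left_cancel₀ (by norm_num) h').symm
    have ha1 : a.natAbs = 1 := by
      by_contra hne
      obtain ⟨p, hp, hpa⟩ := Nat.exists_prime_and_dvd hne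
      have hpa' : (p : ℤ) ∣ a := Int.natCast_dvd.2 hpa
      exact hss p hp (by rw [hΔa]; exact Dvd.dvd.mul_left (dvd_pow hpa' (by norm_num)) _)
        (by rw [ha]; exact Dvd.dvd.mul_left hpa' _)
    have hc6 : c6 ^ 2 = -12493 * a ^ 3 := by
      rw [ha, hΔa] at hrel
      linear_combination -hrel
    rcases Int.natAbs_eq a with h1 | h1 <;> rw [ha1] at h1 <;> rw [h1] at hc6
    · norm_num at hc6
      nlinarith [sq_nonneg c6]
    · norm_num at hc6
      have h5 : ((c6 : ZMod 5)) ^ 2 = 3 := by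
        have := congrArg (Int.cast : ℤ → ZMod 5) hc6
        push_cast at this
        rw [this]
        decide
      revert h5
      generalize (c6 : ZMod 5) = x
      revert x
      decide

end Fermat.Agent.S51
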