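import Mathlib
import Fermat.Prelude.Def_FLTPrelim_GaloisRep
import Fermat.Prelude.Def_FLTPrelim_Modularity
import Fermat.Prelude.Def_FLTPrelim_ModularRep

set_option autoImplicit false

namespace Fermat.Agent.S51

open WeierstrassCurve

variable {K : Type*} [CommRing K]

/-- `ψ₂² = 4x³ + b₂x² + 2b₄x + b₆`. -/
def P2 (W : WeierstrassCurve K) (x : K) : K := 4 * x ^ 3 + W.b₂ * x ^ 2 + 2 * W.b₄ * x + W.b₆

/-- `ψ₃ = 3x⁴ + b₂x³ + 3b₄x² + 3b₆x + b₈`. -/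
def P3 (W : WeierstrassCurve K) (x : K) : K :=
  3 * x ^ 4 + W.b₂ * x ^ 3 + 3 * W.b₄ * x ^ 2 + 3 * W.b₆ * x + W.b₈

/-- numerator of the duplication formula `x⁴ - b₄x² - 2b₆x - b₈`. -/
def Q2 (W : WeierstrassCurve K) (x : K) : K := x ^ 4 - W.b₄ * x ^ 2 - 2 * W.b₆ * x - W.b₈

/-- the shifted `b₄`, `6x² + b₂x + b₄`. -/
def B4 (W : WeierstrassCurve K) (x : K) : K := 6 * x ^ 2 + W.b₂ * x + W.b₄

/-- minus the 5-division polynomial, `ψ₃³ - B₄ψ₃ψ₂⁴ + ψ₂⁸` (degree 12, leading coefficient -5). -/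
def G5 (W : WeierstrassCurve K) (x : K) : K :=
  P3 W x ^ 3 - B4 W x * P3 W x * P2 W x ^ 2 + P2 W x ^ 4

/-- x-coordinate of a point (junk value 0 at the origin). -/
def xc {W : Affine K} : W.Point → K
  | .zero => 0
  | .some x _ _ => x

end Fermat.Agent.S51
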