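import Fermat.Agent.S51.Shift

set_option autoImplicit false

namespace Fermat.Agent.S51

open WeierstrassCurve WeierstrassCurve.Affine

variable {K : Type*} [Field K] [DecidableEq K]

omit [DecidableEq K] in
theorem P2_eq {W : Affine K} {x y : K} (h : W.Equation x y) :
    (2 * y + W.a₁ * x + W.a₃) ^ 2 = P2 W x := by
  have e1 := (equation_iff _ _).1 h
  simp only [P2, b₂, b₄, b₆]
  linear_combination 4 * e1

theorem add_self_eq_zero_iff {W : Affine K} {x y : K} (h : W.Nonsingular x y) :
    Point.some x y h + Point.some x y h = 0 ↔ P2 W x = 0 := by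
  rw [← P2_eq h.1]
  constructor
  · intro h0
    by_contra hne
    have hy : y ≠ W.negY x y := by
      intro hy
      apply hne
      simp only [negY] at hy
      have : 2 * y + W.a₁ * x + W.a₃ = 0 := by linear_combination hy
      rw [this]; ring
    rw [Point.add_self_of_Y_ne hy] at h0
    exact Point.some_ne_zero _ h0
  · intro h0
    apply Point.add_self_of_Y_eq
    simp only [negY]
    have := pow_eq_zero_iff (two_ne_zero) |>.1 h0
    linear_combination this

theorem exists_add_self {W : Affine K} {x y : K} (h : W.Nonsingular x y) (h2 : P2 W x ≠ 0) :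
    ∃ (x' y' : K) (h' : W.Nonsingular x' y'),
      Point.some x y h + Point.some x y h = Point.some x' y' h' ∧ x' * P2 W x = Q2 W x := by
  have hy : y ≠ W.negY x y := by
    intro hy
    apply h2
    rw [← P2_eq h.1]
    simp only [negY] at hy
    have : 2 * y + W.a₁ * x + W.a₃ = 0 := by linear_combination hy
    rw [this]; ring
  refine ⟨_, _, _, Point.add_self_of_Y_ne hy, ?_⟩
  have e1 := (equation_iff _ _).1 h.1
  obtain ⟨D, hD⟩ : ∃ D, D = y - W.negY x y := ⟨_, rfl⟩
  have hd : D ≠ 0 := by
    rw [hD]; exact sub_ne_zero.2 hy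
  simp only [P2, Q2, addX, slope_of_Y_ne rfl hy, b₂, b₄, b₆, b₈, ← hD]
  simp only [negY] at hD
  field_simp
  grind

omit [DecidableEq K] in
theorem not_P2_P3 {W : Affine K} (hΔ : W.Δ ≠ 0) {x : K} (h2 : P2 W x = 0) (h3 : P3 W x = 0) :
    False := by
  have h4 : B4 W x = 0 := by
    have := b_rel_shift W x
    rw [h2, h3] at this
    have h' : B4 W x ^ 2 = 0 := by linear_combination this
    exact pow_eq_zero_iff (two_ne_zero) |>.1 h'
  apply hΔ
  rw [Δ_shift W x, h2, h3, h4]; ring

end Fermat.Agent.S51
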