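import Mathlib

set_option autoImplicit false

namespace Fermat.Agent.S51

variable {K : Type*} [Field K]

/-- translation invariance of `c₄` -/
lemma c4_translate (b2 b4 r : K) :
    (b2 + 12 * r) ^ 2 - 24 * (b4 + r * b2 + 6 * r ^ 2) = b2 ^ 2 - 24 * b4 := by ring

/-- translation invariance of `Δ` (uses the `b₈` relation) -/
lemma disc_translate (b2 b4 b6 b8 r : K) (hb8 : 4 * b8 = b2 * b6 - b4 ^ 2) :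
    -(b2 + 12 * r) ^ 2 * (b8 + 3 * r * b6 + 3 * r ^ 2 * b4 + r ^ 3 * b2 + 3 * r ^ 4)
      - 8 * (b4 + r * b2 + 6 * r ^ 2) ^ 3
      - 27 * (b6 + 2 * r * b4 + r ^ 2 * b2 + 4 * r ^ 3) ^ 2
      + 9 * (b2 + 12 * r) * (b4 + r * b2 + 6 * r ^ 2) * (b6 + 2 * r * b4 + r ^ 2 * b2 + 4 * r ^ 3)
    = -b2 ^ 2 * b8 - 8 * b4 ^ 3 - 27 * b6 ^ 2 + 9 * b2 * b4 * b6 := by
  linear_combination (-(6 * b2 * r + 36 * r ^ 2)) * hb8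

/-- The normal form of a curve with a point of order `5` at `x = 0`, `x(2P) = u`. -/
lemma five_normal_form (B2 B4 B6 B8 u : K) (hB8 : 4 * B8 = B2 * B6 - B4 ^ 2)
    (h12 : u * B6 + B8 = 0) (h21 : -u ^ 4 + B4 * u ^ 2 + 2 * B6 * u + B8 = 0)
    (hu : u ≠ 0) :
    B4 = u ^ 2 - (u ^ 2 - B4) ∧ B6 = u * (u ^ 2 - B4) ∧ B8 = -u ^ 2 * (u ^ 2 - B4) ∧
      B2 * (u * (u ^ 2 - B4)) = (u ^ 2 - (u ^ 2 - B4)) ^ 2 - 4 * u ^ 2 * (u ^ 2 - B4) := by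
  have h6 : B6 = u * (u ^ 2 - B4) := by
    have : u * (B6 - u * (u ^ 2 - B4)) = 0 := by linear_combination h21 - h12
    rcases mul_eq_zero.1 this with h | h
    · exact absurd h hu
    · linear_combination h
  have h8 : B8 = -u ^ 2 * (u ^ 2 - B4) := by linear_combination h12 - u * h6
  refine ⟨by ring, h6, h8, ?_⟩
  linear_combination (-1 : K) * hB8 + 4 * h8 - B2 * h6

/-- `Δ` and `c₄` in the normal form. -/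
lemma five_invariants (B2 u w : K) (hu : u ≠ 0) (hw : w ≠ 0)
    (hB2 : B2 * (u * w) = (u ^ 2 - w) ^ 2 - 4 * u ^ 2 * w) :
    (-B2 ^ 2 * (-u ^ 2 * w) - 8 * (u ^ 2 - w) ^ 3 - 27 * (u * w) ^ 2
        + 9 * B2 * (u ^ 2 - w) * (u * w)) * w = u ^ 4 * (u ^ 4 - 11 * u ^ 2 * w - w ^ 2) ∧
    (B2 ^ 2 - 24 * (u ^ 2 - w)) * (u ^ 2 * w ^ 2)
      = u ^ 8 - 12 * u ^ 6 * w + 14 * u ^ 4 * w ^ 2 + 12 * u ^ 2 * w ^ 3 + w ^ 4 := by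
  have hB : B2 = ((u ^ 2 - w) ^ 2 - 4 * u ^ 2 * w) / (u * w) := by
    field_simp
    linear_combination hB2
  subst hB
  constructor
  · field_simp
    ring
  · field_simp
    ring

/-- (I1) in normal form. -/
lemma I1_normal (c4 D u w : K) (hu : u ≠ 0) (hw : w ≠ 0)
    (hD : D * w = u ^ 4 * (u ^ 4 - 11 * u ^ 2 * w - w ^ 2))
    (hc4 : c4 * (u ^ 2 * w ^ 2)
      = u ^ 8 - 12 * u ^ 6 * w + 14 * u ^ 4 * w ^ 2 + 12 * u ^ 2 * w ^ 3 + w ^ 4) :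
    c4 * (u ^ 2) ^ 5 = D ^ 2 + 10 * D * (u ^ 2) ^ 3 + 5 * (u ^ 2) ^ 6 := by
  have h1 : D = u ^ 4 * (u ^ 4 - 11 * u ^ 2 * w - w ^ 2) / w := by
    field_simp
    linear_combination hD
  have h2 : c4 = (u ^ 8 - 12 * u ^ 6 * w + 14 * u ^ 4 * w ^ 2 + 12 * u ^ 2 * w ^ 3 + w ^ 4)
      / (u ^ 2 * w ^ 2) := by
    field_simp
    linear_combination hc4
  subst h1 h2
  field_simp
  ring

/-- (I2) in normal form. -/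
lemma I2_normal (D u w X : K) (hu : u ≠ 0) (hw : w ≠ 0)
    (hD : D * w = u ^ 4 * (u ^ 4 - 11 * u ^ 2 * w - w ^ 2))
    (hX : 3 * u * w * X ^ 4 + ((u ^ 2 - w) ^ 2 - 4 * u ^ 2 * w) * X ^ 3
      + 3 * u * w * (u ^ 2 - w) * X ^ 2 + 3 * u ^ 2 * w ^ 2 * X - u ^ 3 * w ^ 2 = 0) :
    (X * (X - u) / u ^ 2) ^ 3 * (D / (u ^ 2) ^ 3 + 11) ^ 2
      - 3 * (X * (X - u) / u ^ 2) ^ 2 * (1 + 3 * (X * (X - u) / u ^ 2)) * (D / (u ^ 2) ^ 3 + 11)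
      + (1 + 4 * (X * (X - u) / u ^ 2)) * (1 + X * (X - u) / u ^ 2) ^ 2
      - 9 * (X * (X - u) / u ^ 2) ^ 4 = 0 := by
  have h1 : D = u ^ 4 * (u ^ 4 - 11 * u ^ 2 * w - w ^ 2) / w := by
    field_simp
    linear_combination hD
  subst h1
  have key : ((X * (X - u) / u ^ 2) ^ 3
        * (u ^ 4 * (u ^ 4 - 11 * u ^ 2 * w - w ^ 2) / w / (u ^ 2) ^ 3 + 11) ^ 2
      - 3 * (X * (X - u) / u ^ 2) ^ 2 * (1 + 3 * (X * (X - u) / u ^ 2))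
        * (u ^ 4 * (u ^ 4 - 11 * u ^ 2 * w - w ^ 2) / w / (u ^ 2) ^ 3 + 11)
      + (1 + 4 * (X * (X - u) / u ^ 2)) * (1 + X * (X - u) / u ^ 2) ^ 2
      - 9 * (X * (X - u) / u ^ 2) ^ 4) * (w ^ 2 * u ^ 11)
      = -(3 * u * w * X ^ 4 + ((u ^ 2 - w) ^ 2 - 4 * u ^ 2 * w) * X ^ 3
      + 3 * u * w * (u ^ 2 - w) * X ^ 2 + 3 * u ^ 2 * w ^ 2 * X - u ^ 3 * w ^ 2)
        * (u ^ 5 * (u - X) ^ 3 + 3 * u ^ 2 * w * (u - X) ^ 2 * X ^ 2 - u * w ^ 2 * X ^ 3) := by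
    field_simp
    ring
  rw [hX, neg_zero, zero_mul] at key
  rcases mul_eq_zero.1 key with h | h
  · exact h
  · exact absurd h (mul_ne_zero (pow_ne_zero _ hw) (pow_ne_zero _ hu))

/-- Common set-up: from the two duplication relations produce `w`. -/
lemma five_setup (b2 b4 b6 b8 x1 x2 : K) (hb8 : 4 * b8 = b2 * b6 - b4 ^ 2)
    (h12 : x2 * (4 * x1 ^ 3 + b2 * x1 ^ 2 + 2 * b4 * x1 + b6)
      = x1 ^ 4 - b4 * x1 ^ 2 - 2 * b6 * x1 - b8)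
    (h21 : x1 * (4 * x2 ^ 3 + b2 * x2 ^ 2 + 2 * b4 * x2 + b6)
      = x2 ^ 4 - b4 * x2 ^ 2 - 2 * b6 * x2 - b8)
    (hne : x1 ≠ x2) (hψ : 4 * x1 ^ 3 + b2 * x1 ^ 2 + 2 * b4 * x1 + b6 ≠ 0) :
    ∃ w : K, w ≠ 0 ∧ x2 - x1 ≠ 0 ∧
      b4 + x1 * b2 + 6 * x1 ^ 2 = (x2 - x1) ^ 2 - w ∧
      b6 + 2 * x1 * b4 + x1 ^ 2 * b2 + 4 * x1 ^ 3 = (x2 - x1) * w ∧
      b8 + 3 * x1 * b6 + 3 * x1 ^ 2 * b4 + x1 ^ 3 * b2 + 3 * x1 ^ 4 = -(x2 - x1) ^ 2 * w ∧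
      (b2 + 12 * x1) * ((x2 - x1) * w) = ((x2 - x1) ^ 2 - w) ^ 2 - 4 * (x2 - x1) ^ 2 * w ∧
      (-b2 ^ 2 * b8 - 8 * b4 ^ 3 - 27 * b6 ^ 2 + 9 * b2 * b4 * b6) * w
        = (x2 - x1) ^ 4 * ((x2 - x1) ^ 4 - 11 * (x2 - x1) ^ 2 * w - w ^ 2) ∧
      (b2 ^ 2 - 24 * b4) * ((x2 - x1) ^ 2 * w ^ 2)
        = (x2 - x1) ^ 8 - 12 * (x2 - x1) ^ 6 * w + 14 * (x2 - x1) ^ 4 * w ^ 2
          + 12 * (x2 - x1) ^ 2 * w ^ 3 + w ^ 4 := by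
  have hu : x2 - x1 ≠ 0 := sub_ne_zero.2 (Ne.symm hne)
  obtain ⟨-, h6, h8, h2⟩ := five_normal_form (b2 + 12 * x1) (b4 + x1 * b2 + 6 * x1 ^ 2)
    (b6 + 2 * x1 * b4 + x1 ^ 2 * b2 + 4 * x1 ^ 3)
    (b8 + 3 * x1 * b6 + 3 * x1 ^ 2 * b4 + x1 ^ 3 * b2 + 3 * x1 ^ 4) (x2 - x1)
    (by linear_combination hb8) (by linear_combination h12) (by linear_combination h21) hu
  set u := x2 - x1 with hudef
  set w := u ^ 2 - (b4 + x1 * b2 + 6 * x1 ^ 2) with hwdef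
  have hw : w ≠ 0 := by
    intro hw0
    apply hψ
    rw [hw0, mul_zero] at h6
    linear_combination h6
  have h4 : b4 + x1 * b2 + 6 * x1 ^ 2 = u ^ 2 - w := by rw [hwdef]; ring
  have h2' : (b2 + 12 * x1) * (u * w) = (u ^ 2 - w) ^ 2 - 4 * u ^ 2 * w := h2
  obtain ⟨hD, hc⟩ := five_invariants (b2 + 12 * x1) u w hu hw h2'
  refine ⟨w, hw, hu, h4, h6, h8, h2', ?_, ?_⟩
  · rw [← disc_translate b2 b4 b6 b8 x1 hb8, h4, h6, h8]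
    exact hD
  · rw [← c4_translate b2 b4 x1, h4]
    exact hc

/-- **(I1)**: `c₄ d⁵ = Δ² + 10 Δ d³ + 5 d⁶` for `d = (x(P) - x(2P))²`, `P` of order `5`. -/
theorem I1 (b2 b4 b6 b8 x1 x2 : K) (hb8 : 4 * b8 = b2 * b6 - b4 ^ 2)
    (h12 : x2 * (4 * x1 ^ 3 + b2 * x1 ^ 2 + 2 * b4 * x1 + b6)
      = x1 ^ 4 - b4 * x1 ^ 2 - 2 * b6 * x1 - b8)
    (h21 : x1 * (4 * x2 ^ 3 + b2 * x2 ^ 2 + 2 * b4 * x2 + b6)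
      = x2 ^ 4 - b4 * x2 ^ 2 - 2 * b6 * x2 - b8)
    (hne : x1 ≠ x2) (hψ : 4 * x1 ^ 3 + b2 * x1 ^ 2 + 2 * b4 * x1 + b6 ≠ 0) :
    (b2 ^ 2 - 24 * b4) * ((x1 - x2) ^ 2) ^ 5
      = (-b2 ^ 2 * b8 - 8 * b4 ^ 3 - 27 * b6 ^ 2 + 9 * b2 * b4 * b6) ^ 2
        + 10 * (-b2 ^ 2 * b8 - 8 * b4 ^ 3 - 27 * b6 ^ 2 + 9 * b2 * b4 * b6) * ((x1 - x2) ^ 2) ^ 3
        + 5 * ((x1 - x2) ^ 2) ^ 6 := by
  obtain ⟨w, hw, hu, -, -, -, -, hD, hc⟩ := five_setup b2 b4 b6 b8 x1 x2 hb8 h12 h21 hne hψ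
  have := I1_normal _ _ (x2 - x1) w hu hw hD hc
  have e : (x1 - x2) ^ 2 = (x2 - x1) ^ 2 := by ring
  rw [e]
  exact this

/-- **(I2)**: the relation between `κ = (x_Q-x₁)(x_Q-x₂)/d` and `T = Δ/d³ + 11`. -/
theorem I2 (b2 b4 b6 b8 x1 x2 xQ : K) (hb8 : 4 * b8 = b2 * b6 - b4 ^ 2)
    (h12 : x2 * (4 * x1 ^ 3 + b2 * x1 ^ 2 + 2 * b4 * x1 + b6)
      = x1 ^ 4 - b4 * x1 ^ 2 - 2 * b6 * x1 - b8)
    (h21 : x1 * (4 * x2 ^ 3 + b2 * x2 ^ 2 + 2 * b4 * x2 + b6)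
      = x2 ^ 4 - b4 * x2 ^ 2 - 2 * b6 * x2 - b8)
    (hne : x1 ≠ x2) (hψ : 4 * x1 ^ 3 + b2 * x1 ^ 2 + 2 * b4 * x1 + b6 ≠ 0)
    (hQ : 3 * xQ ^ 4 + b2 * xQ ^ 3 + 3 * b4 * xQ ^ 2 + 3 * b6 * xQ + b8 = 0)
    (κ T : K) (hκ : κ = (xQ - x1) * (xQ - x2) / (x1 - x2) ^ 2)
    (hT : T = (-b2 ^ 2 * b8 - 8 * b4 ^ 3 - 27 * b6 ^ 2 + 9 * b2 * b4 * b6) / ((x1 - x2) ^ 2) ^ 3
      + 11) :
    κ ^ 3 * T ^ 2 - 3 * κ ^ 2 * (1 + 3 * κ) * T + (1 + 4 * κ) * (1 + κ) ^ 2 - 9 * κ ^ 4 = 0 := by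
  obtain ⟨w, hw, hu, h4, h6, h8, h2, hD, -⟩ :=
    five_setup b2 b4 b6 b8 x1 x2 hb8 h12 h21 hne hψ
  have hX : 3 * (x2 - x1) * w * (xQ - x1) ^ 4
      + (((x2 - x1) ^ 2 - w) ^ 2 - 4 * (x2 - x1) ^ 2 * w) * (xQ - x1) ^ 3
      + 3 * (x2 - x1) * w * ((x2 - x1) ^ 2 - w) * (xQ - x1) ^ 2
      + 3 * (x2 - x1) ^ 2 * w ^ 2 * (xQ - x1) - (x2 - x1) ^ 3 * w ^ 2 = 0 := by
    have hQ' : 3 * (xQ - x1) ^ 4 + (b2 + 12 * x1) * (xQ - x1) ^ 3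
        + 3 * (b4 + x1 * b2 + 6 * x1 ^ 2) * (xQ - x1) ^ 2
        + 3 * (b6 + 2 * x1 * b4 + x1 ^ 2 * b2 + 4 * x1 ^ 3) * (xQ - x1)
        + (b8 + 3 * x1 * b6 + 3 * x1 ^ 2 * b4 + x1 ^ 3 * b2 + 3 * x1 ^ 4) = 0 := by
      linear_combination hQ
    rw [h4, h6, h8] at hQ'
    linear_combination ((x2 - x1) * w) * hQ' - (xQ - x1) ^ 3 * h2
  have := I2_normal _ (x2 - x1) w (xQ - x1) hu hw hD hX
  have e : (x1 - x2) ^ 2 = (x2 - x1) ^ 2 := by ring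
  have e2 : xQ - x2 = (xQ - x1) - (x2 - x1) := by ring
  rw [hκ, hT, e, e2]
  exact this

end Fermat.Agent.S51
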