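import Fermat.Agent.S51.Defs

set_option autoImplicit false

namespace Fermat.Agent.S51

open WeierstrassCurve

section ring
variable {K : Type*} [CommRing K]

theorem P2_shift (W : WeierstrassCurve K) (x δ : K) :
    P2 W (x + δ) = 4 * δ ^ 3 + (W.b₂ + 12 * x) * δ ^ 2 + 2 * B4 W x * δ + P2 W x := by
  simp only [P2, B4]; ring

theorem Q2_shift (W : WeierstrassCurve K) (x δ : K) :
    Q2 W (x + δ) - x * P2 W (x + δ) = δ ^ 4 - B4 W x * δ ^ 2 - 2 * P2 W x * δ - P3 W x := by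
  simp only [P2, B4, Q2, P3]; ring

theorem P3_eq (W : WeierstrassCurve K) (x : K) : P3 W x = x * P2 W x - Q2 W x := by
  simp only [P2, Q2, P3]; ring

theorem b_rel_shift (W : WeierstrassCurve K) (x : K) :
    4 * P3 W x = (W.b₂ + 12 * x) * P2 W x - B4 W x ^ 2 := by
  simp only [P2, B4, P3]; linear_combination W.b_relation

theorem c4_shift (W : WeierstrassCurve K) (x : K) :
    W.c₄ = (W.b₂ + 12 * x) ^ 2 - 24 * B4 W x := by
  simp only [B4, WeierstrassCurve.c₄]; ring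

theorem c6_shift (W : WeierstrassCurve K) (x : K) :
    W.c₆ = -(W.b₂ + 12 * x) ^ 3 + 36 * (W.b₂ + 12 * x) * B4 W x - 216 * P2 W x := by
  simp only [B4, P2, WeierstrassCurve.c₆]; ring

theorem Δ_shift (W : WeierstrassCurve K) (x : K) :
    W.Δ = -(W.b₂ + 12 * x) ^ 2 * P3 W x - 8 * B4 W x ^ 3 - 27 * P2 W x ^ 2
      + 9 * (W.b₂ + 12 * x) * B4 W x * P2 W x := by
  simp only [B4, P2, P3, WeierstrassCurve.Δ]
  linear_combination ((36 * x ^ 2) + 6 * x * W.b₂ ) * W.b_relation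

/-- the 3-division polynomial in the variable `ξ = 12 x + b₂`. -/
theorem xi_rel (W : WeierstrassCurve K) (x : K) :
    (12 * x + W.b₂) ^ 4 - 6 * W.c₄ * (12 * x + W.b₂) ^ 2 - 8 * W.c₆ * (12 * x + W.b₂)
      - 3 * W.c₄ ^ 2 = 6912 * P3 W x := by
  simp only [P3, WeierstrassCurve.c₄, WeierstrassCurve.c₆]
  linear_combination (-1728 : K) * W.b_relation

end ring

section field
variable {K : Type*} [Field K]

/-- pure algebra: the `X₀(5)` relation `c₄ = d (t² + 10 t + 5)`, `t = Δ / d³`, `d = δ²`. -/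
theorem R5_of_rel (b2 b4 b6 b8 δ c4 D : K) (hδ : δ ≠ 0) (h6 : b6 ≠ 0)
    (hrel : 4 * b8 = b2 * b6 - b4 ^ 2)
    (h8 : b8 = - δ * b6) (h6' : b6 = δ ^ 3 - b4 * δ)
    (hc4 : c4 = b2 ^ 2 - 24 * b4)
    (hD : D = -b2 ^ 2 * b8 - 8 * b4 ^ 3 - 27 * b6 ^ 2 + 9 * b2 * b4 * b6) :
    5 * (δ ^ 2) ^ 6 - c4 * (δ ^ 2) ^ 5 + 10 * D * (δ ^ 2) ^ 3 + D ^ 2 = 0 := by
  obtain ⟨e, he⟩ : ∃ e, e = δ ^ 2 - b4 := ⟨_, rfl⟩
  have hb4 : b4 = δ ^ 2 - e := by rw [he]; ring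
  have hb6 : b6 = δ * e := by rw [h6', hb4]; ring
  have he0 : e ≠ 0 := by
    rintro rfl
    apply h6; rw [hb6]; ring
  have hb2 : b2 = ((δ ^ 2 - e) ^ 2 - 4 * δ ^ 2 * e) / (δ * e) := by
    field_simp
    rw [h8, hb6, hb4] at hrel
    linear_combination -hrel
  subst hc4 hD
  rw [h8, hb6, hb2, hb4]
  field_simp
  ring

end field

end Fermat.Agent.S51
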