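import Fermat.Agent.S51.Line

set_option autoImplicit false

namespace Fermat.Agent.S51

open WeierstrassCurve WeierstrassCurve.Affine WeierstrassCurve.Affine.Point

local notation "Qbar" => AlgebraicClosure ℚ

theorem exists_stable_point (W' : Affine ℚ) (p : ℕ) [Fact p.Prime]
    (hfin : Finite (Submodule.torsionBy ℤ (W'⁄Qbar).Point p))
    (hcard : Nat.card (Submodule.torsionBy ℤ (W'⁄Qbar).Point p) ≤ p ^ 2)
    (hnt : ∃ P : (W'⁄Qbar).Point, P ≠ 0 ∧ (p : ℤ) • P = 0)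
    (h : ¬ GaloisRepIsIrreducible (K := Qbar) ℚ W' p) :
    ∃ P : (W'⁄Qbar).Point, P ≠ 0 ∧ (p : ℤ) • P = 0 ∧
      ∀ σ : Qbar ≃ₐ[ℚ] Qbar, ∃ k : ℕ, σ • P = k • P := by
  unfold GaloisRepIsIrreducible at h
  have hN : Nontrivial (Submodule.torsionBy ℤ (W'⁄Qbar).Point p) := by
    obtain ⟨P, hP0, hP⟩ := hnt
    refine ⟨⟨⟨P, (Submodule.mem_torsionBy_iff _ _).2 hP⟩, 0, ?_⟩⟩
    intro hh
    exact hP0 (congrArg Subtype.val hh)
  push Not at h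
  obtain ⟨N, hst, h0, h1⟩ := h hN
  obtain ⟨v, hvN, hv0, hgen⟩ := exists_generator_of_card_le hcard N h0 h1
  refine ⟨v.1, fun hh => hv0 (Subtype.ext hh), (Submodule.mem_torsionBy_iff _ _).1 v.2, ?_⟩
  intro σ
  obtain ⟨k, hk⟩ := hgen _ (hst σ v hvN)
  exact ⟨k, congrArg Subtype.val hk⟩

theorem Δ_Qbar_ne_zero (W : WeierstrassCurve ℤ) (hΔ : W.Δ ≠ 0) :
    (((W.map (Int.castRingHom ℚ) : Affine ℚ))⁄Qbar).Δ ≠ 0 := by
  simp only [Affine.baseChange, WeierstrassCurve.baseChange, WeierstrassCurve.map_Δ]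
  simpa using hΔ

theorem smul_ne_zero_of_ne_zero (W' : Affine ℚ) (σ : Qbar ≃ₐ[ℚ] Qbar) {P : (W'⁄Qbar).Point}
    (hP : P ≠ 0) : σ • P ≠ 0 := by
  intro h
  exact hP ((smul_eq_zero_iff_eq σ).1 h)

end Fermat.Agent.S51
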