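import Fermat.Agent.S51.Dup

set_option autoImplicit false

namespace Fermat.Agent.S51

open WeierstrassCurve WeierstrassCurve.Affine

variable {K : Type*} [Field K] [DecidableEq K]

omit [DecidableEq K] in
theorem G5_of_rel {W : Affine K} {x δ : K} (h8 : P3 W x = -δ * P2 W x) :
    G5 W x = - P2 W x ^ 3 * (δ ^ 3 - B4 W x * δ - P2 W x) := by
  simp only [G5]; rw [h8]; ring

theorem five_core {W : Affine K} {x y : K} (h : W.Nonsingular x y)
    (h5 : (5 : ℤ) • Point.some x y h = 0) :
    ∃ (x' y' : K) (h' : W.Nonsingular x' y'),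
      Point.some x y h + Point.some x y h = Point.some x' y' h' ∧ x' - x ≠ 0 ∧ P2 W x ≠ 0 ∧
      P3 W x = -(x' - x) * P2 W x ∧ P2 W x = (x' - x) ^ 3 - B4 W x * (x' - x) := by
  set P := Point.some x y h with hP
  have hP0 : P ≠ 0 := Point.some_ne_zero _
  have h5' : (P + P) + (P + P) + P = 0 := by rw [← h5]; abel
  have h2 : P2 W x ≠ 0 := by
    intro h2
    have := (add_self_eq_zero_iff h).2 h2
    rw [← hP] at this
    rw [this] at h5'
    exact hP0 (by simpa using h5')
  obtain ⟨x', y', h', hPP, hx'⟩ := exists_add_self h h2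
  rw [← hP] at hPP
  have h2' : P2 W x' ≠ 0 := by
    intro h2'
    have := (add_self_eq_zero_iff h').2 h2'
    rw [← hPP] at this
    rw [this] at h5'
    exact hP0 (by simpa using h5')
  obtain ⟨x'', y'', h'', hPP', hx''⟩ := exists_add_self h' h2'
  rw [← hPP] at hPP'
  have h4 : (P + P) + (P + P) = -P := eq_neg_of_add_eq_zero_left h5'
  have hxx : x'' = x := by
    rw [hPP', hP, Point.neg_some] at h4
    simp only [Point.some.injEq] at h4
    exact h4.1
  have hδ : x' - x ≠ 0 := by
    intro hδ
    have hx : x' = x := sub_eq_zero.1 hδ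
    have : P + P = P ∨ P + P = -P := by
      rw [hPP, hP]
      exact Point.X_eq_iff.1 hx
    rcases this with h1 | h1
    · exact hP0 (by simpa using h1)
    · rw [h1] at h5'
      apply hP0
      have : -P + -P + P = -P := by abel
      rw [this] at h5'
      exact neg_eq_zero.1 h5'
  refine ⟨x', y', h', hPP, hδ, h2, ?_, ?_⟩
  · rw [P3_eq]; linear_combination hx'
  · have hs := Q2_shift W x (x' - x)
    have e : x + (x' - x) = x' := by ring
    rw [e, ← hx'', hxx, sub_self] at hs
    have h8 : P3 W x = -(x' - x) * P2 W x := by rw [P3_eq]; linear_combination hx'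
    rw [h8] at hs
    have : (x' - x) * ((x' - x) ^ 3 - B4 W x * (x' - x) - P2 W x) = 0 := by
      linear_combination -hs
    rcases mul_eq_zero.1 this with h0 | h0
    · exact absurd h0 hδ
    · linear_combination -h0

theorem five_smul_eq_zero_iff {W : Affine K} (hΔ : W.Δ ≠ 0) {x y : K} (h : W.Nonsingular x y) :
    (5 : ℤ) • Point.some x y h = 0 ↔ G5 W x = 0 := by
  constructor
  · intro h5
    obtain ⟨x', y', h', -, -, -, h8, h6⟩ := five_core h h5
    rw [G5_of_rel h8]
    rw [← h6]; ring
  · intro hG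
    set P := Point.some x y h with hP
    have hP0 : P ≠ 0 := Point.some_ne_zero _
    have h2 : P2 W x ≠ 0 := by
      intro h2
      have h3 : P3 W x = 0 := by
        simp only [G5] at hG
        rw [h2] at hG
        have : P3 W x ^ 3 = 0 := by linear_combination hG
        exact pow_eq_zero_iff (three_ne_zero) |>.1 this
      exact not_P2_P3 hΔ h2 h3
    obtain ⟨δ, hδdef⟩ : ∃ δ, δ = - P3 W x / P2 W x := ⟨_, rfl⟩
    have h8 : P3 W x = -δ * P2 W x := by rw [hδdef]; field_simp
    have h6 : δ ^ 3 - B4 W x * δ - P2 W x = 0 := by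
      rw [G5_of_rel h8] at hG
      rcases mul_eq_zero.1 hG with h0 | h0
      · exact absurd (pow_eq_zero_iff (three_ne_zero) |>.1 (neg_eq_zero.1 h0)) h2
      · exact h0
    have hδ : δ ≠ 0 := by
      rintro rfl
      apply h2
      linear_combination -h6
    obtain ⟨x', y', h', hPP, hx'⟩ := exists_add_self h h2
    rw [← hP] at hPP
    have hxδ : x' = x + δ := by
      have : (x' - (x + δ)) * P2 W x = 0 := by
        have := P3_eq W x
        linear_combination hx' + this - h8
      rcases mul_eq_zero.1 this with h0 | h0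
      · exact sub_eq_zero.1 h0
      · exact absurd h0 h2
    have hkey : P2 W x' * P2 W x = δ ^ 6 := by
      rw [hxδ, P2_shift]
      have hb := b_rel_shift W x
      rw [h8] at hb
      have e6 : P2 W x = δ ^ 3 - B4 W x * δ := by linear_combination -h6
      linear_combination (-(δ ^ 2)) * hb + (P2 W x + δ * B4 W x + δ ^ 3) * e6
    have h2' : P2 W x' ≠ 0 := by
      intro h0
      rw [h0, zero_mul] at hkey
      exact hδ (pow_eq_zero_iff (by norm_num) |>.1 hkey.symm)
    obtain ⟨x'', y'', h'', hPP', hx''⟩ := exists_add_self h' h2'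
    rw [← hPP] at hPP'
    have hxx : x'' = x := by
      have hs := Q2_shift W x δ
      rw [← hxδ, ← hx'', h8] at hs
      have : (x'' - x) * P2 W x' = 0 := by linear_combination hs + δ * h6
      rcases mul_eq_zero.1 this with h0 | h0
      · exact sub_eq_zero.1 h0
      · exact absurd h0 h2'
    have h4 : (P + P) + (P + P) = P ∨ (P + P) + (P + P) = -P := by
      rw [hPP', hP]
      exact Point.X_eq_iff.1 hxx
    have e5 : (5 : ℤ) • P = (P + P) + (P + P) + P := by abel
    rcases h4 with h4 | h4
    · exfalso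
      have h3 : P + P = -P := by
        have : (P + P) + (P + P) - P = 0 := by rw [h4, sub_self]
        have h3' : P + P + P = 0 := by rw [← this]; abel
        exact eq_neg_of_add_eq_zero_left h3'
      rw [hPP, hP, Point.neg_some] at h3
      simp only [Point.some.injEq] at h3
      apply hδ
      linear_combination h3.1 - hxδ
    · rw [e5, h4]; abel

theorem five_tors_rel {W : Affine K} (hΔ : W.Δ ≠ 0) {P : W.Point} (hP : P ≠ 0)
    (h5 : (5 : ℤ) • P = 0) :
    xc ((2 : ℤ) • P) ≠ xc P ∧
      5 * ((xc ((2 : ℤ) • P) - xc P) ^ 2) ^ 6 - W.c₄ * ((xc ((2 : ℤ) • P) - xc P) ^ 2) ^ 5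
        + 10 * W.Δ * ((xc ((2 : ℤ) • P) - xc P) ^ 2) ^ 3 + W.Δ ^ 2 = 0 := by
  cases P with
  | zero => exact absurd rfl hP
  | some x y h =>
    obtain ⟨x', y', h', hPP, hδ, h2, h8, h6⟩ := five_core h h5
    rw [two_zsmul, hPP]
    simp only [xc]
    refine ⟨fun e => hδ (sub_eq_zero.2 e), ?_⟩
    exact R5_of_rel (W.b₂ + 12 * x) (B4 W x) (P2 W x) (P3 W x) (x' - x) W.c₄ W.Δ hδ h2
      (b_rel_shift W x) h8 h6 (c4_shift W x) (Δ_shift W x)

end Fermat.Agent.S51
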