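import Mathlib
import Fermat.Statements.S51
import Fermat.Agent.S05.Formulas

set_option autoImplicit false

namespace Fermat.Agent.S51

open WeierstrassCurve WeierstrassCurve.Affine WeierstrassCurve.Affine.Point
open Fermat.Agent.S05

section General

variable {F : Type*} [Field F] {W : WeierstrassCurve.Affine F}

/-- the coordinate `ξ = 12 x + b₂` -/
def xi (P : W.Point) : F := 12 * xc P + W.b₂

/-- numerator of the duplication map in short form -/
def dupF (A B x : F) : F := x ^ 4 - 2 * A * x ^ 2 - 8 * B * x + A ^ 2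

/-- denominator of the duplication map in short form -/
def dupG (A B x : F) : F := 4 * (x ^ 3 + A * x + B)

lemma xi_neg (P : W.Point) : xi (-P) = xi P := by
  simp only [xi, xc_neg]

lemma dupG_xi (P : W.Point) :
    dupG (-3 * W.c₄) (-2 * W.c₆) (xi P)
      = 1728 * (4 * (xc P) ^ 3 + W.b₂ * (xc P) ^ 2 + 2 * W.b₄ * xc P + W.b₆) := by
  simp only [dupG, xi, WeierstrassCurve.c₄, WeierstrassCurve.c₆]
  ring

lemma dupF_xi (P : W.Point) :
    dupF (-3 * W.c₄) (-2 * W.c₆) (xi P)
      = 1728 * (12 * ((xc P) ^ 4 - W.b₄ * (xc P) ^ 2 - 2 * W.b₆ * xc P - W.b₈)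
        + W.b₂ * (4 * (xc P) ^ 3 + W.b₂ * (xc P) ^ 2 + 2 * W.b₄ * xc P + W.b₆)) := by
  have h := W.b_relation
  simp only [dupF, xi, WeierstrassCurve.c₄, WeierstrassCurve.c₆]
  linear_combination (5184 : F) * h

variable [DecidableEq F]

lemma xi_dbl {P : W.Point} (hP : P ≠ 0) (h2 : P + P ≠ 0) :
    xi (P + P) * dupG (-3 * W.c₄) (-2 * W.c₆) (xi P) = dupF (-3 * W.c₄) (-2 * W.c₆) (xi P) := by
  have h := xc_dbl hP h2
  rw [dupG_xi, dupF_xi]
  simp only [xi]
  linear_combination (20736 : F) * h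

omit [DecidableEq F] in
lemma xi_eq_iff [CharZero F] {P Q : W.Point} (hP : P ≠ 0) (hQ : Q ≠ 0) :
    xi P = xi Q ↔ P = Q ∨ P = -Q := by
  rw [← xc_eq_iff hP hQ]
  simp only [xi]
  constructor
  · intro h
    have h12 : (12 : F) ≠ 0 := by norm_num
    have : (12 : F) * xc P = 12 * xc Q := by linear_combination h
    exact mul_left_cancel₀ h12 this
  · intro h
    rw [h]

lemma dupG_xi_eq_zero_iff [CharZero F] {P : W.Point} (hP : P ≠ 0) :
    dupG (-3 * W.c₄) (-2 * W.c₆) (xi P) = 0 ↔ P + P = 0 := by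
  rw [dupG_xi, ← psi2_sq hP, add_self_eq_zero_iff hP]
  constructor
  · intro h
    have h1728 : (1728 : F) ≠ 0 := by norm_num
    exact pow_eq_zero_iff (two_ne_zero) |>.1 ((mul_eq_zero.1 h).resolve_left h1728)
  · intro h
    rw [h]; ring

omit [DecidableEq F] in
/-- the discriminant in short form -/
lemma short_disc : 4 * (-3 * W.c₄) ^ 3 + 27 * (-2 * W.c₆) ^ 2 = -(108 * 1728) * W.Δ := by
  have h := W.c_relation
  linear_combination (108 : F) * h

omit [DecidableEq F] in
lemma short_disc_ne_zero [CharZero F] (hΔ : W.Δ ≠ 0) :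
    4 * (-3 * W.c₄) ^ 3 + 27 * (-2 * W.c₆) ^ 2 ≠ 0 := by
  rw [short_disc]
  exact mul_ne_zero (by norm_num) hΔ

omit [DecidableEq F] in
/-- over an algebraically closed field every `ξ` is the coordinate of a point -/
lemma exists_point_of_xi [CharZero F] [IsAlgClosed F] (hΔ : W.Δ ≠ 0) (ξ : F) :
    ∃ P : W.Point, P ≠ 0 ∧ xi P = ξ := by
  obtain ⟨x, hx⟩ : ∃ x : F, x = (ξ - W.b₂) / 12 := ⟨_, rfl⟩
  obtain ⟨s, hs⟩ := IsAlgClosed.exists_eq_mul_self
    (4 * x ^ 3 + W.b₂ * x ^ 2 + 2 * W.b₄ * x + W.b₆)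
  obtain ⟨y, hy⟩ : ∃ y : F, y = (s - W.a₁ * x - W.a₃) / 2 := ⟨_, rfl⟩
  have hs' : s = 2 * y + W.a₁ * x + W.a₃ := by rw [hy]; ring
  have heq : W.Equation x y := by
    rw [equation_iff]
    rw [hs'] at hs
    simp only [WeierstrassCurve.b₂, WeierstrassCurve.b₄, WeierstrassCurve.b₆] at hs
    have h4 : (4 : F) ≠ 0 := by norm_num
    apply mul_left_cancel₀ h4
    linear_combination -hs
  refine ⟨Point.some x y ((W.equation_iff_nonsingular_of_Δ_ne_zero hΔ).1 heq),
    Point.some_ne_zero _, ?_⟩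
  simp only [xi, xc_some, hx]
  ring

omit [DecidableEq F] in
/-- crude counting: a set of points whose `ξ`-coordinates lie in a finite set is finite -/
lemma finite_of_xi_mem [CharZero F] (T : Set W.Point) (S : Finset F)
    (h : ∀ P ∈ T, P ≠ 0 → xi P ∈ S) : T.Finite ∧ T.ncard ≤ 2 * S.card + 1 := by
  classical
  let Q : F → W.Point := fun x =>
    if h : ∃ P : W.Point, P ≠ 0 ∧ xi P = x then h.choose else 0
  let U : Finset W.Point := insert 0 (S.image Q ∪ S.image (fun x => - Q x))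
  have hTU : T ⊆ (U : Set W.Point) := by
    intro P hP
    by_cases h0 : P = 0
    · simp [U, h0]
    · have hex : ∃ P' : W.Point, P' ≠ 0 ∧ xi P' = xi P := ⟨P, h0, rfl⟩
      have hQ : Q (xi P) = hex.choose := dif_pos hex
      have hQ0 : Q (xi P) ≠ 0 := by rw [hQ]; exact hex.choose_spec.1
      have hQx : xi (Q (xi P)) = xi P := by rw [hQ]; exact hex.choose_spec.2
      have hS := h P hP h0
      rcases (xi_eq_iff h0 hQ0).1 hQx.symm with h1 | h1
      · simp only [U, Finset.coe_insert, Finset.coe_union, Finset.coe_image]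
        right; left
        exact ⟨xi P, hS, h1.symm⟩
      · simp only [U, Finset.coe_insert, Finset.coe_union, Finset.coe_image]
        right; right
        exact ⟨xi P, hS, h1.symm⟩
  refine ⟨U.finite_toSet.subset hTU, ?_⟩
  calc T.ncard ≤ (U : Set W.Point).ncard := Set.ncard_le_ncard hTU U.finite_toSet
    _ = U.card := Set.ncard_coe_finset U
    _ ≤ (S.image Q ∪ S.image (fun x => - Q x)).card + 1 := Finset.card_insert_le _ _
    _ ≤ (S.image Q).card + (S.image (fun x => - Q x)).card + 1 := by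
        gcongr; exact Finset.card_union_le _ _
    _ ≤ S.card + S.card + 1 := by
        gcongr <;> exact Finset.card_image_le
    _ = 2 * S.card + 1 := by ring

end General

section LinAlg

/-- a proper nonzero subspace of a space with fewer than `p ^ 3` elements is a line -/
lemma exists_generator_of_card_lt {p : ℕ} [Fact p.Prime] {V : Type*} [AddCommGroup V]
    [Module (ZMod p) V] [Finite V] (hcard : Nat.card V < p ^ 3) (N : Submodule (ZMod p) V)
    (hbot : N ≠ ⊥) (htop : N ≠ ⊤) :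
    ∃ v ∈ N, v ≠ 0 ∧ ∀ w ∈ N, ∃ c : ZMod p, c • v = w := by
  have : Module.Finite (ZMod p) V := Module.Finite.of_finite
  have hp : 1 < p := (Fact.out : p.Prime).one_lt
  have h1 := Module.natCard_eq_pow_finrank (K := ZMod p) (V := V)
  rw [Nat.card_zmod] at h1
  rw [h1] at hcard
  have h2 : Module.finrank (ZMod p) V < 3 := (Nat.pow_lt_pow_iff_right hp).1 hcard
  have h3 := Submodule.finrank_lt htop
  have h4 : Module.finrank (ZMod p) N ≠ 0 := by
    intro h
    exact hbot (Submodule.finrank_eq_zero.1 h)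
  have h5 : Module.finrank (ZMod p) N = 1 := by omega
  obtain ⟨v, hv, hw⟩ := finrank_eq_one_iff'.1 h5
  refine ⟨v, v.2, fun h => hv (Subtype.ext h), fun w hwN => ?_⟩
  obtain ⟨c, hc⟩ := hw ⟨w, hwN⟩
  exact ⟨c, congrArg Subtype.val hc⟩

end LinAlg

section Galois

local notation "Qbar" => AlgebraicClosure ℚ

theorem exists_rat_of_fixed (x : Qbar) (h : ∀ σ : Qbar ≃ₐ[ℚ] Qbar, σ x = x) :
    ∃ r : ℚ, algebraMap ℚ Qbar r = x := by
  have : Algebra.IsAlgebraic ℚ Qbar := AlgebraicClosure.isAlgebraic ℚ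
  have : IsAlgClosure ℚ Qbar := ⟨inferInstance, inferInstance⟩
  exact (InfiniteGalois.mem_range_algebraMap_iff_fixed x).2 h

variable {W' : WeierstrassCurve.Affine ℚ}

lemma xc_smul (σ : Qbar ≃ₐ[ℚ] Qbar) (P : (W'⁄Qbar).Point) : xc (σ • P) = σ (xc P) := by
  rw [algEquiv_smul_def]
  cases P with
  | zero => simp [← Point.zero_def]
  | some x y h => rw [Point.map_some]; rfl

lemma xi_smul (σ : Qbar ≃ₐ[ℚ] Qbar) (P : (W'⁄Qbar).Point) : xi (σ • P) = σ (xi P) := by
  simp only [xi, xc_smul, map_add, map_mul, map_ofNat]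
  congr 1
  change (W'.map (algebraMap ℚ Qbar)).b₂ = σ (W'.map (algebraMap ℚ Qbar)).b₂
  rw [WeierstrassCurve.map_b₂, AlgEquiv.commutes]

end Galois

end Fermat.Agent.S51
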